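import Fermat.Agent.S25.DefsDict

/-!
# Row S25, bridge AS9: `Stmt.Charts` from the dictionary and `Stmt.AlgCharts` (formal)

helper625.  The only facts of the calculus of gluing data that are used are proved here:
`isIso_refl'` and `isBC_of_isIso_right` (a base change composed with an isomorphism is a base
change).
-/

set_option autoImplicit false
universe u
open CategoryTheory CategoryTheory.Limits AlgebraicGeometry AlgebraicGeometry.RelPicard
  NeronModelInfra GoodReductionJacobian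
open scoped TensorProduct

namespace Fermat.Agent.S25.H625

section GDC

/-- Composing a semilinear base-change map with a linear equivalence of the target. -/
theorem isSemilinearBaseChange_equiv_comp {R R' : Type u} [CommRing R] [CommRing R']
    (ρ : R →+* R') {N N' N'' : Type u} [AddCommGroup N] [Module R N] [AddCommGroup N']
    [Module R' N'] [AddCommGroup N''] [Module R' N''] (b : N →ₛₗ[ρ] N')
    (hb : IsSemilinearBaseChange ρ b) (e : N' ≃ₗ[R'] N'') :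
    IsSemilinearBaseChange ρ ((e : N' →ₗ[R'] N'').comp b) := by
  unfold IsSemilinearBaseChange at hb ⊢
  letI : Algebra R R' := ρ.toAlgebra
  letI : Module R N' := Module.compHom N' ρ
  letI : Module R N'' := Module.compHom N'' ρ
  haveI : IsScalarTower R R' N' := ⟨fun r r' n => by
    change (ρ r * r') • n = ρ r • (r' • n); rw [mul_smul]⟩
  haveI : IsScalarTower R R' N'' := ⟨fun r r' n => by
    change (ρ r * r') • n = ρ r • (r' • n); rw [mul_smul]⟩
  exact IsBaseChange.comp hb (IsBaseChange.ofEquiv e)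

variable {A R₀ R₁ R₀₁ : Type u} [CommRing A] [CommRing R₀] [CommRing R₁]
    [CommRing R₀₁] [Algebra A R₀] [Algebra A R₁] [Algebra A R₀₁] [Algebra R₀ R₀₁]
    [Algebra R₁ R₀₁] [IsScalarTower A R₀ R₀₁] [IsScalarTower A R₁ R₀₁]
    {A' R₀' R₁' R₀₁' : Type u} [CommRing A'] [CommRing R₀'] [CommRing R₁']
    [CommRing R₀₁'] [Algebra A' R₀'] [Algebra A' R₁'] [Algebra A' R₀₁'] [Algebra R₀' R₀₁']
    [Algebra R₁' R₀₁'] [IsScalarTower A' R₀' R₀₁'] [IsScalarTower A' R₁' R₀₁']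

/-- Every gluing datum is isomorphic to itself. -/
theorem isIso_refl' (G : GlueDatum A R₀ R₁ R₀₁) : G.IsIso G :=
  ⟨⟨LinearEquiv.refl _ _, LinearEquiv.refl _ _, LinearEquiv.refl _ _, fun _ => rfl,
    fun _ => rfl⟩⟩

/-- A base change followed by an isomorphism is a base change. -/
theorem isBC_of_isIso_right {ρ₀ : R₀ →+* R₀'} {ρ₁ : R₁ →+* R₁'} {ρ₀₁ : R₀₁ →+* R₀₁'}
    {G : GlueDatum A R₀ R₁ R₀₁} {G' G'' : GlueDatum A' R₀' R₁' R₀₁'}
    (h : GlueDatum.IsBC ρ₀ ρ₁ ρ₀₁ G G') (hi : G'.IsIso G'') :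
    GlueDatum.IsBC ρ₀ ρ₁ ρ₀₁ G G'' := by
  obtain ⟨m⟩ := h
  obtain ⟨i⟩ := hi
  refine ⟨⟨(i.e₀ : G'.N₀ →ₗ[R₀'] G''.N₀).comp m.b₀, (i.e₁ : G'.N₁ →ₗ[R₁'] G''.N₁).comp m.b₁,
    (i.e₀₁ : G'.N₀₁ →ₗ[R₀₁'] G''.N₀₁).comp m.b₀₁, ?_, ?_,
    isSemilinearBaseChange_equiv_comp ρ₀ m.b₀ m.isBaseChange₀ i.e₀,
    isSemilinearBaseChange_equiv_comp ρ₁ m.b₁ m.isBaseChange₁ i.e₁,
    isSemilinearBaseChange_equiv_comp ρ₀₁ m.b₀₁ m.isBaseChange₀₁ i.e₀₁⟩⟩
  · intro s
    simp only [LinearMap.coe_comp, LinearEquiv.coe_coe, Function.comp_apply]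
    rw [m.comm₀, i.comm₀]
  · intro s
    simp only [LinearMap.coe_comp, LinearEquiv.coe_coe, Function.comp_apply]
    rw [m.comm₁, i.comm₁]

end GDC

variable {k : Type u} [Field k] {C : Scheme.{u}} {c : C ⟶ Spec (CommRingCat.of k)}
  {ε : SchemeHomOver (𝟙 (Spec (CommRingCat.of k))) c}

/-- The scheme-theoretic chart family attached to an algebraic chart family through the
dictionary. -/
theorem nonempty_chartFamily_of_alg (Ch : ChartOf c ε) (hSec : Stmt.DictSections Ch)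
    (hGlue : Stmt.DictGlue Ch) (hIso : Stmt.DictIso Ch) (hBC : Stmt.DictBC Ch)
    (hDeg : Stmt.DictDeg Ch) (hEx : Stmt.AlgBCExists Ch)
    (F : AlgChartFamily k Ch.B₀ Ch.B₁ Ch.B₀₁ Ch.e) : Nonempty (ChartFamily c ε) := by
  classical
  -- the bundles of the charts
  have hb : ∀ i, ∃ M : RigidifiedLineBundle c ε (specStr k (F.R i)),
      Corr Ch (F.R i) M.L (F.datum i) := fun i => hGlue (F.R i) (F.datum i) (F.rig i)
  choose bundle hbundle using hb
  refine ⟨{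
    ι := F.ι
    R := F.R
    finiteType := F.finiteType
    bundle := bundle
    deg0 := fun i => (hDeg (F.R i) (bundle i) (F.datum i) (hbundle i)).2 (F.deg0 i)
    inj := ?_
    locus := ?_ }⟩
  · intro i A _ _ φ ψ hφψ
    obtain ⟨Gφ, hGφ⟩ := hEx (F.R i) A φ (F.datum i)
    obtain ⟨Gψ, hGψ⟩ := hEx (F.R i) A ψ (F.datum i)
    have h1 := hBC (F.R i) A φ (bundle i) (F.datum i) Gφ (hbundle i) hGφ
    have h2 := hBC (F.R i) A ψ (bundle i) (F.datum i) Gψ (hbundle i) hGψ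
    exact F.inj i A φ ψ Gφ Gψ hGφ hGψ ((hIso A _ _ Gφ Gψ h1 h2).1 hφψ)
  · intro A _ _ M hM
    obtain ⟨G, hG, hrig⟩ := hSec A M
    obtain ⟨I, hI, hloc⟩ := F.locus A G hrig ((hDeg A M G hG).1 hM)
    refine ⟨I, hI, fun i A' _ _ ψ => ?_⟩
    obtain ⟨G', hG'⟩ := hEx A A' ψ G
    have hMG' := hBC A A' ψ M G G' hG hG'
    rw [← hloc i A' ψ G' hG']
    constructor
    · rintro ⟨φ, hφ⟩
      obtain ⟨G'', hG''⟩ := hEx (F.R i) A' φ (F.datum i)
      have h1 := hBC (F.R i) A' φ (bundle i) (F.datum i) G'' (hbundle i) hG''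
      exact ⟨φ, isBC_of_isIso_right hG'' ((hIso A' _ _ G'' G' h1 hMG').1 hφ)⟩
    · rintro ⟨φ, hφ⟩
      have h1 := hBC (F.R i) A' φ (bundle i) (F.datum i) G' (hbundle i) hφ
      exact ⟨φ, (hIso A' _ _ G' G' h1 hMG').2 (isIso_refl' G')⟩

/-- AS9: `Stmt.Charts` follows formally from the dictionary and `Stmt.AlgCharts`. -/
theorem charts_of_alg (Ch : ChartOf c ε) (hSec : Stmt.DictSections Ch)
    (hGlue : Stmt.DictGlue Ch) (hIso : Stmt.DictIso Ch) (hBC : Stmt.DictBC Ch)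
    (hDeg : Stmt.DictDeg Ch) (hEx : Stmt.AlgBCExists Ch)
    (hCh : Stmt.AlgCharts k Ch.B₀ Ch.B₁ Ch.B₀₁) : Stmt.Charts c ε := by
  obtain ⟨F⟩ := hCh Ch.x Ch.y Ch.e Ch.isCurveChart
  exact nonempty_chartFamily_of_alg Ch hSec hGlue hIso hBC hDeg hEx F

end Fermat.Agent.S25.H625
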