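import Fermat.Agent.S25.DefsAlg

/-!
# Row S25, GDC-OPS (helper625): twisting a gluing datum by a unit of `R₀₁`

`twist G u = (N₀, N₁, N₀₁, r₀, u • r₁)`.  For a curve chart and `u = (1 ⊗ x) ^ n` this is
`G(n) = L(n E₀)`: its `H⁰` is `{(a, b) | r₀ a = x ^ n • r₁ b}`.
-/

set_option autoImplicit false
universe u
open scoped TensorProduct

namespace Fermat.Agent.S25.H625

variable {A R₀ R₁ R₀₁ : Type u} [CommRing A] [CommRing R₀] [CommRing R₁]
    [CommRing R₀₁] [Algebra A R₀] [Algebra A R₁] [Algebra A R₀₁] [Algebra R₀ R₀₁]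
    [Algebra R₁ R₀₁] [IsScalarTower A R₀ R₀₁] [IsScalarTower A R₁ R₀₁]

/-- Multiplication by a unit, as a linear equivalence. -/
def unitLinearEquiv {R M : Type*} [CommRing R] [AddCommGroup M] [Module R M] (u : Rˣ) :
    M ≃ₗ[R] M where
  toFun := fun n => (u : R) • n
  invFun := fun n => ((u⁻¹ : Rˣ) : R) • n
  map_add' := fun a b => smul_add _ a b
  map_smul' := fun r n => by
    simp only [RingHom.id_apply]
    rw [smul_smul, smul_smul, mul_comm]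
  left_inv := fun n => by
    simp only
    rw [smul_smul, Units.inv_mul, one_smul]
  right_inv := fun n => by
    simp only
    rw [smul_smul, Units.mul_inv, one_smul]

@[simp] theorem unitLinearEquiv_apply {R M : Type*} [CommRing R] [AddCommGroup M] [Module R M]
    (u : Rˣ) (n : M) : unitLinearEquiv (M := M) u n = (u : R) • n := rfl

/-- Multiplication by a unit of `R₀₁` on `N₀₁`, as a linear equivalence. -/
def unitSMulEquiv (G : GlueDatum A R₀ R₁ R₀₁) (u : R₀₁ˣ) : G.N₀₁ ≃ₗ[R₀₁] G.N₀₁ :=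
  unitLinearEquiv u

@[simp] theorem unitSMulEquiv_apply (G : GlueDatum A R₀ R₁ R₀₁) (u : R₀₁ˣ) (n : G.N₀₁) :
    unitSMulEquiv G u n = (u : R₀₁) • n := rfl

/-- The twist of a gluing datum by a unit `u` of `R₀₁`: the restriction map `r₁` is replaced
by `u • r₁`. -/
def twist (G : GlueDatum A R₀ R₁ R₀₁) (u : R₀₁ˣ) : GlueDatum A R₀ R₁ R₀₁ :=
  { G with
    r₁ := ((unitSMulEquiv G u).toLinearMap.restrictScalars R₁).comp G.r₁
    isBaseChange₁ := IsBaseChange.comp G.isBaseChange₁ (IsBaseChange.ofEquiv (unitSMulEquiv G u)) }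

section Basic

variable (G : GlueDatum A R₀ R₁ R₀₁) (u v : R₀₁ˣ)

@[simp] theorem twist_r₀ (a : G.N₀) :
    (twist G u).r₀ a = (show (twist G u).N₀₁ from G.r₀ a) := rfl

@[simp] theorem twist_r₁ (b : G.N₁) :
    (twist G u).r₁ b = (show (twist G u).N₀₁ from (u : R₀₁) • G.r₁ b) := rfl

theorem twist_cech (p : G.N₀ × G.N₁) :
    (twist G u).cech p = (show (twist G u).N₀₁ from G.r₀ p.1 - (u : R₀₁) • G.r₁ p.2) := by
  simp only [GlueDatum.cech, LinearMap.coprod_apply, LinearMap.coe_restrictScalars,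
    LinearMap.neg_apply, sub_eq_add_neg]
  rfl

theorem mem_H0_twist_iff (p : G.N₀ × G.N₁) :
    (show (twist G u).N₀ × (twist G u).N₁ from p) ∈ (twist G u).H0 ↔
      G.r₀ p.1 = (u : R₀₁) • G.r₁ p.2 := by
  rw [LinearMap.mem_ker, twist_cech]
  exact sub_eq_zero

/-- Isomorphic data have isomorphic twists. -/
theorem isIso_twist {G G' : GlueDatum A R₀ R₁ R₀₁} (h : G.IsIso G') (u : R₀₁ˣ) :
    (twist G u).IsIso (twist G' u) := by
  obtain ⟨i⟩ := h
  have key : ∀ s : G.N₁, i.e₀₁ ((u : R₀₁) • G.r₁ s) = (u : R₀₁) • G'.r₁ (i.e₁ s) := fun s => by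
    rw [map_smul, i.comm₁]
  exact ⟨⟨i.e₀, i.e₁, i.e₀₁, i.comm₀, fun s => key s⟩⟩

/-- Twisting by `1` does nothing. -/
theorem isIso_twist_one : (twist G 1).IsIso G :=
  have key : ∀ s : G.N₁, ((1 : R₀₁ˣ) : R₀₁) • G.r₁ s = G.r₁ s := fun s => by
    rw [Units.val_one, one_smul]
  ⟨⟨LinearEquiv.refl _ _, LinearEquiv.refl _ _, LinearEquiv.refl _ _, fun _ => rfl,
    fun s => key s⟩⟩

/-- Twisting twice is twisting by the product. -/
theorem isIso_twist_twist : (twist (twist G u) v).IsIso (twist G (u * v)) :=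
  have key : ∀ s : G.N₁,
      (v : R₀₁) • ((u : R₀₁) • G.r₁ s) = ((u * v : R₀₁ˣ) : R₀₁) • G.r₁ s := fun s => by
    rw [smul_smul, Units.val_mul, mul_comm]
  ⟨⟨LinearEquiv.refl _ _, LinearEquiv.refl _ _, LinearEquiv.refl _ _, fun _ => rfl,
    fun s => key s⟩⟩

/-- A unit of `R₀` (resp. `R₁`) does not change the isomorphism class:
`twist G (image of a unit of R₁) ≅ G`. -/
theorem isIso_twist_of_unit₁ (w : R₁ˣ) (hw : (u : R₀₁) = algebraMap R₁ R₀₁ w) :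
    (twist G u).IsIso G := by
  have key : ∀ s : G.N₁, (u : R₀₁) • G.r₁ s = G.r₁ ((w : R₁) • s) := fun s => by
    rw [map_smul, hw, algebraMap_smul]
  exact ⟨⟨LinearEquiv.refl _ _, (unitLinearEquiv w : G.N₁ ≃ₗ[R₁] G.N₁),
    LinearEquiv.refl _ _, fun _ => rfl, fun s => key s⟩⟩

end Basic

section BaseChange

variable {A' R₀' R₁' R₀₁' : Type u} [CommRing A'] [CommRing R₀'] [CommRing R₁']
    [CommRing R₀₁'] [Algebra A' R₀'] [Algebra A' R₁'] [Algebra A' R₀₁'] [Algebra R₀' R₀₁']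
    [Algebra R₁' R₀₁'] [IsScalarTower A' R₀' R₀₁'] [IsScalarTower A' R₁' R₀₁']

/-- Twisting commutes with base change. -/
theorem isBC_twist {ρ₀ : R₀ →+* R₀'} {ρ₁ : R₁ →+* R₁'} {ρ₀₁ : R₀₁ →+* R₀₁'}
    {G : GlueDatum A R₀ R₁ R₀₁} {G' : GlueDatum A' R₀' R₁' R₀₁'}
    (h : GlueDatum.IsBC ρ₀ ρ₁ ρ₀₁ G G') (u : R₀₁ˣ) :
    GlueDatum.IsBC ρ₀ ρ₁ ρ₀₁ (twist G u) (twist G' (Units.map ρ₀₁.toMonoidHom u)) := by
  obtain ⟨m⟩ := h
  have key : ∀ s : G.N₁, m.b₀₁ ((u : R₀₁) • G.r₁ s) = (ρ₀₁ (u : R₀₁)) • G'.r₁ (m.b₁ s) :=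
    fun s => by rw [LinearMap.map_smulₛₗ, m.comm₁]
  exact ⟨⟨m.b₀, m.b₁, m.b₀₁, m.comm₀, fun s => key s, m.isBaseChange₀, m.isBaseChange₁,
    m.isBaseChange₀₁⟩⟩

end BaseChange

end Fermat.Agent.S25.H625
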