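import Fermat.Agent.S25.H11.ACLeaves
import Fermat.Agent.S25.H791.ACStage1

/-!
# S25 / ALGCHARTS, leaf PT-BC (helper625): the point conditions commute with base change

`pointCond_bc` : exact statement of `coord/S25-ALGCHARTS-skeleton.lean` (squad-lead helper11);
`pointBC : H11.Leaf.PointBC k B₀ B₁ B₀₁`.

Route: helper791's comparison isomorphisms `A' ⊗[A] Nᵢ ≃ Nᵢ'` (`BCEquivs`), SH3
(`mem_range_of_mem_sec`, `mem_range_of_mem_vanq`) and right exactness of `A' ⊗ -` applied to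
`0 → H⁰(G(nE₀ - Σq)) → H⁰(G(nE₀)) → N₀ / I_q N₀ → 0` (onto by `P1`).
-/

set_option autoImplicit false
set_option linter.style.haveILetI false
set_option linter.unusedSectionVars false
set_option linter.unusedVariables false

universe u

open scoped TensorProduct

namespace Fermat.Agent.S25.H625

open Fermat.Agent.S25 Fermat.Agent.S25.H11 Fermat.Agent.S25.H791

section Core

variable {k : Type u} [Field k]
  {B₀ B₁ B₀₁ : Type u} [CommRing B₀] [CommRing B₁] [CommRing B₀₁]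
  [Algebra k B₀] [Algebra k B₁] [Algebra k B₀₁] [Algebra B₀ B₀₁] [Algebra B₁ B₀₁]
  [IsScalarTower k B₀ B₀₁] [IsScalarTower k B₁ B₀₁]
  {x : B₀} {y : B₁} {e : B₁ →ₐ[k] k}

section RightExact

variable {A A' : Type u} [CommRing A] [CommRing A'] [Algebra A A']

/-- Right exactness: for a surjection `π`, the kernel of `A' ⊗ π` is the image of
`A' ⊗ ker π`. -/
theorem ker_baseChange_eq_of_surjective {M Q : Type u} [AddCommGroup M] [Module A M]
    [AddCommGroup Q] [Module A Q] (π : M →ₗ[A] Q) (hπ : Function.Surjective π) :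
    LinearMap.ker (π.baseChange A') =
      LinearMap.range ((LinearMap.ker π).subtype.baseChange A') := by
  have hex : Function.Exact (LinearMap.ker π).subtype π := fun m => by
    constructor
    · intro h
      exact ⟨⟨m, h⟩, rfl⟩
    · rintro ⟨c, rfl⟩
      exact c.2
  have hex' := lTensor_exact A' hex hπ
  ext t
  rw [LinearMap.mem_ker, LinearMap.mem_range]
  have h1 : (π.baseChange A' : A' ⊗[A] M → A' ⊗[A] Q) = π.lTensor A' :=
    LinearMap.baseChange_eq_ltensor π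
  have h2 : ((LinearMap.ker π).subtype.baseChange A' : A' ⊗[A] (LinearMap.ker π) → A' ⊗[A] M) =
      (LinearMap.ker π).subtype.lTensor A' :=
    LinearMap.baseChange_eq_ltensor (LinearMap.ker π).subtype
  rw [h1, h2]
  exact hex' t

end RightExact

section BaseChange

variable {A A' : Type u} [CommRing A] [Algebra k A] [CommRing A'] [Algebra k A'] [Algebra A A']
  [IsScalarTower k A A']

variable {ψ : A →ₐ[k] A'} {G : CurveGD k B₀ B₁ B₀₁ A} {G' : CurveGD k B₀ B₁ B₀₁ A'}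
  {bc : GlueDatum.BaseChangeMaps (tensorMapLeft k ψ B₀) (tensorMapLeft k ψ B₁)
      (tensorMapLeft k ψ B₀₁) G G'}

/-- `P1` is stable under base change. -/
theorem p1_baseChange (hC : IsCurveChart k B₀ B₁ B₀₁ x y e) (n : ℕ) {m : ℕ}
    (q : Fin m → (B₀ →ₐ[k] k)) (ψ : A →ₐ[k] A') (hψ : ∀ a, ψ a = algebraMap A A' a)
    {G : CurveGD k B₀ B₁ B₀₁ A} {G' : CurveGD k B₀ B₁ B₀₁ A'} (h : CurveGD.IsBC ψ G G')
    (h1 : P1 x n q G) : P1 x n q G' := by
  rw [p1_iff_annihilator_map hC n q ψ hψ h h1.1]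
  have htop : evRange x n q G = ⊤ := (p1_iff.mp h1).2
  have hann : Module.annihilator A (G.N₀ ⧸ evRange x n q G) = ⊤ := by
    rw [Ideal.eq_top_iff_one, Module.mem_annihilator]
    intro z
    obtain ⟨a, rfl⟩ := Submodule.Quotient.mk_surjective _ z
    rw [one_smul, Submodule.Quotient.mk_eq_zero, htop]
    exact Submodule.mem_top
  rw [hann, Ideal.map_top]

/-- The evaluation map `H⁰(G(nE₀)) → N₀ / I_q N₀`. -/
noncomputable def evq (x : B₀) (n : ℕ) {m : ℕ} (q : Fin m → (B₀ →ₐ[k] k))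
    (G : CurveGD k B₀ B₁ B₀₁ A) :
    sec x n G →ₗ[A] G.N₀ ⧸ (vanq q G).restrictScalars A :=
  ((vanq q G).restrictScalars A).mkQ ∘ₗ (LinearMap.fst A G.N₀ G.N₁) ∘ₗ (sec x n G).subtype

theorem mem_ker_evq {n : ℕ} {m : ℕ} {q : Fin m → (B₀ →ₐ[k] k)}
    {G : CurveGD k B₀ B₁ B₀₁ A} (σ : sec x n G) :
    σ ∈ LinearMap.ker (evq x n q G) ↔ (σ : G.N₀ × G.N₁) ∈ secq x n q G := by
  rw [LinearMap.mem_ker, mem_secq]
  show ((vanq q G).restrictScalars A).mkQ (σ : G.N₀ × G.N₁).1 = 0 ↔ _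
  rw [Submodule.mkQ_apply, Submodule.Quotient.mk_eq_zero]
  exact ⟨fun h => ⟨σ.2, h⟩, fun h => h.2⟩

theorem evq_surjective {n : ℕ} {m : ℕ} {q : Fin m → (B₀ →ₐ[k] k)}
    {G : CurveGD k B₀ B₁ B₀₁ A} (h1 : P1 x n q G) : Function.Surjective (evq x n q G) := by
  intro z
  obtain ⟨a, rfl⟩ := Submodule.Quotient.mk_surjective _ z
  obtain ⟨s, hs, hv⟩ := h1.2 a
  refine ⟨⟨s, hs⟩, ?_⟩
  show ((vanq q G).restrictScalars A).mkQ s.1 = Submodule.Quotient.mk a
  rw [Submodule.mkQ_apply, eq_comm, Submodule.Quotient.eq]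
  exact hv

/-- **Base change of `H⁰(G(nE₀ - Σq))`.** Under `P1` for `G`, every section of
`G'(nE₀ - Σq)` is an `A'`-combination of base-changed sections of `G(nE₀ - Σq)`. -/
theorem mem_span_of_mem_secq (E : BCEquivs ψ bc) (hC : IsCurveChart k B₀ B₁ B₀₁ x y e)
    (n : ℕ) {m : ℕ} (q : Fin m → (B₀ →ₐ[k] k)) (h1 : P1 x n q G)
    {t : G'.N₀ × G'.N₁} (ht : t ∈ secq x n q G') :
    t ∈ Submodule.span A'
      {p : G'.N₀ × G'.N₁ | ∃ s ∈ secq x n q G, p = (bc.b₀ s.1, bc.b₁ s.2)} := by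
  obtain ⟨u, hu⟩ := E.mem_range_of_mem_sec hC n h1.1 ht.1
  -- `u` is killed by `A' ⊗ evq`
  have hvan := E.mem_range_of_mem_vanq q ht.2
  rw [← ker_mkQ_baseChange_eq, LinearMap.mem_ker] at hvan
  have hfst : E.E₀.symm t.1 =
      (LinearMap.fst A G.N₀ G.N₁).baseChange A' (E.prod.symm t) := by
    apply E.E₀.injective
    rw [LinearEquiv.apply_symm_apply, ← E.prod_fst, LinearEquiv.apply_symm_apply]
  have hker : u ∈ LinearMap.ker ((evq x n q G).baseChange A') := by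
    rw [LinearMap.mem_ker, evq, LinearMap.baseChange_comp, LinearMap.baseChange_comp,
      LinearMap.comp_apply, LinearMap.comp_apply, hu, ← hfst]
    exact hvan
  rw [ker_baseChange_eq_of_surjective _ (evq_surjective h1)] at hker
  obtain ⟨v, hv⟩ := hker
  have ht' : t = E.prod ((sec x n G).subtype.baseChange A'
      ((LinearMap.ker (evq x n q G)).subtype.baseChange A' v)) := by
    rw [hv, hu, LinearEquiv.apply_symm_apply]
  rw [ht']
  clear ht' hv hfst hvan hu ht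
  induction v using TensorProduct.induction_on with
  | zero => simp
  | add v w hv hw =>
    simp only [map_add]
    exact Submodule.add_mem _ hv hw
  | tmul a' σ =>
    rw [LinearMap.baseChange_tmul, LinearMap.baseChange_tmul, E.prod_tmul]
    have hsm : ((a' • bc.b₀ (σ : sec x n G).1.1, a' • bc.b₁ (σ : sec x n G).1.2) :
        G'.N₀ × G'.N₁) = a' • ((bc.b₀ (σ : sec x n G).1.1, bc.b₁ (σ : sec x n G).1.2) :
          G'.N₀ × G'.N₁) := rfl
    show ((a' • bc.b₀ (σ : sec x n G).1.1, a' • bc.b₁ (σ : sec x n G).1.2) :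
        G'.N₀ × G'.N₁) ∈ _
    rw [hsm]
    refine Submodule.smul_mem _ _ (Submodule.subset_span ?_)
    exact ⟨(σ : sec x n G).1, (mem_ker_evq (σ : sec x n G)).mp σ.2, rfl⟩


omit [Algebra A A'] [IsScalarTower k A A'] in
/-- `tensorMapLeft` on scalars of `A`. -/
theorem tensorMapLeft_algebraMap (ψ : A →ₐ[k] A') (B : Type u) [CommRing B] [Algebra k B]
    (a : A) :
    tensorMapLeft k ψ B (algebraMap A (A ⊗[k] B) a) = algebraMap A' (A' ⊗[k] B) (ψ a) := by
  rw [Algebra.TensorProduct.algebraMap_apply, Algebra.TensorProduct.algebraMap_apply]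
  simp [tensorMapLeft]

omit [Algebra A A'] [IsScalarTower k A A'] in
/-- Base change maps are `ψ`-semilinear for the `A`-module structures. -/
theorem b₀_smul_base (ψ : A →ₐ[k] A') {G : CurveGD k B₀ B₁ B₀₁ A}
    {G' : CurveGD k B₀ B₁ B₀₁ A'}
    (bc : GlueDatum.BaseChangeMaps (tensorMapLeft k ψ B₀) (tensorMapLeft k ψ B₁)
      (tensorMapLeft k ψ B₀₁) G G') (a : A) (n : G.N₀) :
    bc.b₀ (a • n) = ψ a • bc.b₀ n := by
  rw [← algebraMap_smul (A ⊗[k] B₀) a n, bc.b₀.map_smulₛₗ, tensorMapLeft_algebraMap,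
    algebraMap_smul]

omit [Algebra A A'] [IsScalarTower k A A'] in
theorem b₁_smul_base (ψ : A →ₐ[k] A') {G : CurveGD k B₀ B₁ B₀₁ A}
    {G' : CurveGD k B₀ B₁ B₀₁ A'}
    (bc : GlueDatum.BaseChangeMaps (tensorMapLeft k ψ B₀) (tensorMapLeft k ψ B₁)
      (tensorMapLeft k ψ B₀₁) G G') (a : A) (n : G.N₁) :
    bc.b₁ (a • n) = ψ a • bc.b₁ n := by
  rw [← algebraMap_smul (A ⊗[k] B₁) a n, bc.b₁.map_smulₛₗ, tensorMapLeft_algebraMap,
    algebraMap_smul]

omit [Algebra A A'] [IsScalarTower k A A'] in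
/-- Base change maps send `I • N₀` into `I' • N₀'`. -/
theorem b₀_mem_smul_top (ψ : A →ₐ[k] A') {G : CurveGD k B₀ B₁ B₀₁ A}
    {G' : CurveGD k B₀ B₁ B₀₁ A'}
    (bc : GlueDatum.BaseChangeMaps (tensorMapLeft k ψ B₀) (tensorMapLeft k ψ B₁)
      (tensorMapLeft k ψ B₀₁) G G') (I : Ideal (A ⊗[k] B₀)) {v : G.N₀}
    (hv : v ∈ I • (⊤ : Submodule (A ⊗[k] B₀) G.N₀)) :
    bc.b₀ v ∈ I.map (tensorMapLeft k ψ B₀) • (⊤ : Submodule (A' ⊗[k] B₀) G'.N₀) := by
  refine Submodule.smul_induction_on hv (fun r hr n _ => ?_) (fun a b ha hb => ?_)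
  · rw [bc.b₀.map_smulₛₗ]
    exact Submodule.smul_mem_smul (Ideal.mem_map_of_mem _ hr) Submodule.mem_top
  · rw [map_add]
    exact Submodule.add_mem _ ha hb

omit [Algebra A A'] [IsScalarTower k A A'] in
/-- Base change maps send `y N₁` into `y N₁'`. -/
theorem b₁_mem_ySpan (ψ : A →ₐ[k] A') {G : CurveGD k B₀ B₁ B₀₁ A}
    {G' : CurveGD k B₀ B₁ B₀₁ A'}
    (bc : GlueDatum.BaseChangeMaps (tensorMapLeft k ψ B₀) (tensorMapLeft k ψ B₁)
      (tensorMapLeft k ψ B₀₁) G G') (y : B₁) {v : G.N₁}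
    (hv : v ∈ (Ideal.span {yElt k A y} • ⊤ : Submodule (A ⊗[k] B₁) G.N₁)) :
    bc.b₁ v ∈ (Ideal.span {yElt k A' y} • ⊤ : Submodule (A' ⊗[k] B₁) G'.N₁) := by
  refine Submodule.smul_induction_on hv (fun r hr n _ => ?_) (fun a b ha hb => ?_)
  · rw [bc.b₁.map_smulₛₗ]
    refine Submodule.smul_mem_smul ?_ Submodule.mem_top
    obtain ⟨c, rfl⟩ := Ideal.mem_span_singleton'.mp hr
    rw [map_mul]
    have hy : tensorMapLeft k ψ B₁ (yElt k A y) = yElt k A' y := by
      simp [tensorMapLeft, yElt]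
    rw [hy]
    exact Ideal.mul_mem_left _ _ (Ideal.subset_span rfl)
  · rw [map_add]
    exact Submodule.add_mem _ ha hb

/-- `GenModY` is stable under base change. -/
theorem genModY_bc (E : BCEquivs ψ bc) {b : G.N₁} (hb : GenModY y G b) :
    GenModY y G' (bc.b₁ b) := by
  intro c'
  obtain ⟨w, rfl⟩ := E.E₁.surjective c'
  induction w using TensorProduct.induction_on with
  | zero =>
    refine ⟨0, ?_⟩
    rw [map_zero, zero_smul, sub_zero]
    exact Submodule.zero_mem _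
  | add w₁ w₂ h₁ h₂ =>
    obtain ⟨r₁, hr₁⟩ := h₁
    obtain ⟨r₂, hr₂⟩ := h₂
    refine ⟨r₁ + r₂, ?_⟩
    have : E.E₁ (w₁ + w₂) - (r₁ + r₂) • bc.b₁ b =
        (E.E₁ w₁ - r₁ • bc.b₁ b) + (E.E₁ w₂ - r₂ • bc.b₁ b) := by
      rw [map_add, add_smul]; abel
    rw [this]
    exact Submodule.add_mem _ hr₁ hr₂
  | tmul a' c =>
    obtain ⟨r, hr⟩ := hb c
    refine ⟨algebraMap A' (A' ⊗[k] B₁) a' * tensorMapLeft k ψ B₁ r, ?_⟩
    rw [E.E₁_tmul]
    have h1 : a' • bc.b₁ c - (algebraMap A' (A' ⊗[k] B₁) a' * tensorMapLeft k ψ B₁ r) • bc.b₁ b =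
        a' • bc.b₁ (c - r • b) := by
      rw [map_sub, bc.b₁.map_smulₛₗ, smul_sub, mul_smul, algebraMap_smul]
    rw [h1]
    exact Submodule.smul_of_tower_mem _ a' (b₁_mem_ySpan ψ bc y hr)

/-- The image of `b₀` spans `N₀'`. -/
theorem forall_mem_of_b₀ (E : BCEquivs ψ bc) (T : Submodule (A' ⊗[k] B₀) G'.N₀)
    (hT : ∀ n : G.N₀, bc.b₀ n ∈ T) (n' : G'.N₀) : n' ∈ T := by
  obtain ⟨w, rfl⟩ := E.E₀.surjective n'
  induction w using TensorProduct.induction_on with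
  | zero => rw [map_zero]; exact T.zero_mem
  | add w₁ w₂ h₁ h₂ => rw [map_add]; exact T.add_mem h₁ h₂
  | tmul a' n =>
    rw [E.E₀_tmul]
    exact Submodule.smul_of_tower_mem _ a' (hT n)

/-- Base change of the equation `span {s} = I • N₀`. -/
theorem span_b₀_eq (E : BCEquivs ψ bc) (I : Ideal (A ⊗[k] B₀)) (s : G.N₀)
    (h : Submodule.span (A ⊗[k] B₀) {s} = I • (⊤ : Submodule (A ⊗[k] B₀) G.N₀)) :
    Submodule.span (A' ⊗[k] B₀) {bc.b₀ s} =
      I.map (tensorMapLeft k ψ B₀) • (⊤ : Submodule (A' ⊗[k] B₀) G'.N₀) := by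
  apply le_antisymm
  · rw [Submodule.span_le, Set.singleton_subset_iff]
    refine b₀_mem_smul_top ψ bc I ?_
    rw [← h]
    exact Submodule.mem_span_singleton_self s
  · set T := Submodule.span (A' ⊗[k] B₀) {bc.b₀ s} with hT
    have key : ∀ r' ∈ I.map (tensorMapLeft k ψ B₀), ∀ n' : G'.N₀, r' • n' ∈ T := by
      intro r' hr'
      induction hr' using Submodule.span_induction with
      | mem r' hr' =>
        obtain ⟨r, hr, rfl⟩ := hr'
        intro n'
        refine forall_mem_of_b₀ E (T.comap (LinearMap.lsmul (A' ⊗[k] B₀) G'.N₀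
          (tensorMapLeft k ψ B₀ r))) (fun n => ?_) n'
        rw [Submodule.mem_comap, LinearMap.lsmul_apply, ← bc.b₀.map_smulₛₗ]
        have hmem : r • n ∈ Submodule.span (A ⊗[k] B₀) {s} := by
          rw [h]
          exact Submodule.smul_mem_smul hr Submodule.mem_top
        obtain ⟨c, hc⟩ := Submodule.mem_span_singleton.mp hmem
        rw [← hc, bc.b₀.map_smulₛₗ]
        exact Submodule.smul_mem _ _ (Submodule.mem_span_singleton_self _)
      | zero => intro n'; rw [zero_smul]; exact T.zero_mem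
      | add a b _ _ ha hb => intro n'; rw [add_smul]; exact T.add_mem (ha n') (hb n')
      | smul c a _ ha =>
        intro n'
        rw [smul_eq_mul, mul_comm, mul_smul]
        exact ha (c • n')
    rw [Submodule.smul_le]
    exact fun r hr n _ => key r hr n

omit [Algebra A A'] [IsScalarTower k A A'] in
/-- Composition of base change maps on ideals. -/
theorem map_bc_comp {R : Type u} [CommRing R] [Algebra k R] (φ₀ : R →ₐ[k] A) (ψ : A →ₐ[k] A')
    (I : Ideal (R ⊗[k] B₀)) :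
    (I.map (H491.bc B₀ φ₀)).map (tensorMapLeft k ψ B₀) = I.map (H491.bc B₀ (ψ.comp φ₀)) := by
  have h : ∀ z, tensorMapLeft k ψ B₀ (H491.bc B₀ φ₀ z) = H491.bc B₀ (ψ.comp φ₀) z := by
    intro z
    induction z using TensorProduct.induction_on with
    | zero => simp
    | add z w hz hw => simp only [map_add, hz, hw]
    | tmul a b => simp [tensorMapLeft, H491.bc]
  apply le_antisymm
  · rw [Ideal.map_le_iff_le_comap, Ideal.map_le_iff_le_comap]
    intro z hz
    rw [Ideal.mem_comap, Ideal.mem_comap, h]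
    exact Ideal.mem_map_of_mem _ hz
  · rw [Ideal.map_le_iff_le_comap]
    intro z hz
    rw [Ideal.mem_comap, ← h]
    exact Ideal.mem_map_of_mem _ (Ideal.mem_map_of_mem _ hz)

end BaseChange

end Core

section Main

variable {k : Type u} [Field k] [IsAlgClosed k]
  {B₀ B₁ B₀₁ : Type u} [CommRing B₀] [CommRing B₁] [CommRing B₀₁]
  [Algebra k B₀] [Algebra k B₁] [Algebra k B₀₁] [Algebra B₀ B₀₁] [Algebra B₁ B₀₁]
  [IsScalarTower k B₀ B₀₁] [IsScalarTower k B₁ B₀₁]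
  {x : B₀} {y : B₁} {e : B₁ →ₐ[k] k}
  {A A' : Type u} [CommRing A] [Algebra k A] [CommRing A'] [Algebra k A']

/-- PT-BC (exact skeleton statement): the point conditions are compatible with base change,
with Hilbert coordinates `ψ ∘ φ₀`. -/
theorem pointCond_bc (hC : IsCurveChart k B₀ B₁ B₀₁ x y e) (i : ChartIndex k B₀)
    (hnum : i.Numeric B₀₁ y) {G : CurveGD k B₀ B₁ B₀₁ A} {G' : CurveGD k B₀ B₁ B₀₁ A'}
    (ψ : A →ₐ[k] A') (hbc : CurveGD.IsBC ψ G G') (hrig : G.Rigidifiable e) (hdeg : G.Deg0)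
    {φ₀ : H491.Rβ k i.β →ₐ[k] A} (h : PointCond x y i G φ₀) :
    PointCond x y i G' (ψ.comp φ₀) := by
  letI : Algebra A A' := ψ.toRingHom.toAlgebra
  haveI : IsScalarTower k A A' := IsScalarTower.of_algebraMap_eq' (by
    ext c
    exact (ψ.commutes c).symm)
  have hψ : ∀ a, ψ a = algebraMap A A' a := fun _ => rfl
  have hp1 : P1 x i.n i.q G' := p1_baseChange hC i.n i.q ψ hψ hbc h.p1
  obtain ⟨bc⟩ := hbc
  obtain ⟨E⟩ := exists_bcEquivs ψ hψ bc
  obtain ⟨s, hs, hspan⟩ := h.sect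
  refine ⟨hp1, ⟨(bc.b₀ s.1, bc.b₁ s.2), ⟨?_, ?_, ?_⟩, ?_⟩, ?_⟩
  · exact ⟨BCEquivs.bc_mem_sec ψ bc x i.n hs.mem.1, BCEquivs.bc_mem_vanq ψ bc i.q hs.mem.2⟩
  · intro t ht
    have hmem := mem_span_of_mem_secq E hC i.n i.q h.p1 ht
    have hle : Submodule.span A'
        {p : G'.N₀ × G'.N₁ | ∃ s' ∈ secq x i.n i.q G, p = (bc.b₀ s'.1, bc.b₁ s'.2)} ≤
        Submodule.span A' {((bc.b₀ s.1, bc.b₁ s.2) : G'.N₀ × G'.N₁)} := by
      rw [Submodule.span_le]
      rintro _ ⟨s', hs', rfl⟩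
      obtain ⟨a, rfl⟩ := hs.span s' hs'
      rw [SetLike.mem_coe, Submodule.mem_span_singleton]
      refine ⟨ψ a, ?_⟩
      show (ψ a • bc.b₀ s.1, ψ a • bc.b₁ s.2) = (bc.b₀ (a • s).1, bc.b₁ (a • s).2)
      rw [Prod.smul_fst, Prod.smul_snd, b₀_smul_base, b₁_smul_base]
    obtain ⟨a', ha'⟩ := Submodule.mem_span_singleton.mp (hle hmem)
    exact ⟨a', ha'.symm⟩
  · exact genModY_bc E hs.gen
  · rw [← map_bc_comp, ← map_ptIdeal ψ i.q, ← Ideal.map_mul]
    exact span_b₀_eq E _ s.1 hspan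
  · exact h.unit.map ψ

/-- PT-BC as the leaf `Prop` of `H11/ACLeaves.lean`. -/
theorem pointBC : H11.Leaf.PointBC k B₀ B₁ B₀₁ :=
  fun _ _ _ hC i hnum _ _ _ _ _ _ _ _ ψ hbc hrig hdeg _ h =>
    pointCond_bc hC i hnum ψ hbc hrig hdeg h

end Main


end Fermat.Agent.S25.H625
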