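import Mathlib

/-!
# Row S25, GDC-OPS (helper625): base change of `Hom` for finitely generated projective modules

Mathlib has `IsBaseChange.linearMapLeftRight` for finite *free* sources and
`Module.FinitePresentation.isBaseChange_map` for *flat* base change.  Here: the source is
finitely generated projective, the ring map is arbitrary.

* `isBaseChange_of_retract` : a retract of a base-change map is a base-change map;
* `isBaseChange_linearMapLeftRightHom` : `Hom_R(M, N) → Hom_S(P, Q)` is a base change when
  `M` is f.g. projective, `P` a base change of `M`, `Q` a base change of `N`;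
* `isBaseChange_toDual` : the same for duals.
-/

set_option autoImplicit false

namespace Fermat.Agent.S25.H625

open TensorProduct

section Retract

variable {R S : Type*} [CommRing R] [CommRing S] [Algebra R S]
  {X X' Y Y' : Type*} [AddCommGroup X] [Module R X] [AddCommGroup X'] [Module R X']
  [AddCommGroup Y] [Module R Y] [Module S Y] [IsScalarTower R S Y]
  [AddCommGroup Y'] [Module R Y'] [Module S Y'] [IsScalarTower R S Y']

/-- A retract of a base-change map is a base-change map. -/
theorem isBaseChange_of_retract {f : X →ₗ[R] Y} {f' : X' →ₗ[R] Y'} (h' : IsBaseChange S f')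
    (a : X →ₗ[R] X') (b : X' →ₗ[R] X) (hab : ∀ x, b (a x) = x)
    (c : Y →ₗ[S] Y') (d : Y' →ₗ[S] Y) (hcd : ∀ y, d (c y) = y)
    (hc : ∀ x, c (f x) = f' (a x)) (hd : ∀ x', d (f' x') = f (b x')) : IsBaseChange S f := by
  have h1 : ∀ t : S ⊗[R] X, c (f.liftBaseChange S t) = h'.equiv (a.baseChange S t) := by
    intro t
    induction t using TensorProduct.induction_on with
    | zero => simp
    | tmul s x => simp [hc]
    | add x y hx hy => simp only [map_add, hx, hy]
  have h2 : ∀ t' : S ⊗[R] X', d (h'.equiv t') = f.liftBaseChange S (b.baseChange S t') := by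
    intro t'
    induction t' using TensorProduct.induction_on with
    | zero => simp
    | tmul s x => simp [hd]
    | add x y hx hy => simp only [map_add, hx, hy]
  have h3 : ∀ t : S ⊗[R] X, b.baseChange S (a.baseChange S t) = t := by
    intro t
    induction t using TensorProduct.induction_on with
    | zero => simp
    | tmul s x => simp [hab]
    | add x y hx hy => simp only [map_add, hx, hy]
  have hinj : Function.Injective (f.liftBaseChange S) := by
    rw [injective_iff_map_eq_zero]
    intro t ht
    have : h'.equiv (a.baseChange S t) = 0 := by rw [← h1, ht, map_zero]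
    rw [← h3 t, h'.equiv.map_eq_zero_iff.1 this, map_zero]
  have hsurj : Function.Surjective (f.liftBaseChange S) := by
    intro y
    obtain ⟨t', ht'⟩ := h'.equiv.surjective (c y)
    exact ⟨b.baseChange S t', by rw [← h2, ht', hcd]⟩
  exact IsBaseChange.of_equiv (LinearEquiv.ofBijective (f.liftBaseChange S) ⟨hinj, hsurj⟩)
    (fun x => by simp)

end Retract

section Hom

variable {R S : Type*} [CommRing R] [CommRing S] [Algebra R S]
  {M N P Q : Type*} [AddCommGroup M] [Module R M] [AddCommGroup N] [Module R N]
  [AddCommGroup P] [Module R P] [Module S P] [IsScalarTower R S P]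
  [AddCommGroup Q] [Module R Q] [Module S Q] [IsScalarTower R S Q]

/-- `Hom_R(M, N) → Hom_S(P, Q)` is a base-change map when `M` is finitely generated
projective, `P` is a base change of `M` and `Q` a base change of `N`. -/
theorem isBaseChange_linearMapLeftRightHom [Module.Finite R M] [Module.Projective R M]
    {α : M →ₗ[R] P} (j : IsBaseChange S α) {β : N →ₗ[R] Q} (k : IsBaseChange S β) :
    IsBaseChange S (IsBaseChange.linearMapLeftRightHom j β) := by
  obtain ⟨n, p, i, -, -, hpi⟩ := Module.Finite.exists_comp_eq_id_of_projective R M
  have hpi' : ∀ m, p (i m) = m := fun m => by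
    simpa using LinearMap.congr_fun hpi m
  have jF : IsBaseChange S (TensorProduct.mk R S (Fin n → R) 1) :=
    TensorProduct.isBaseChange R (Fin n → R) S
  have hF := IsBaseChange.linearMapLeftRight jF k
  let p' : S ⊗[R] (Fin n → R) →ₗ[S] P := (α ∘ₗ p).liftBaseChange S
  let i' : P →ₗ[S] S ⊗[R] (Fin n → R) := j.lift ((TensorProduct.mk R S (Fin n → R) 1) ∘ₗ i)
  have hp' : ∀ v, p' (1 ⊗ₜ v) = α (p v) := fun v => by simp [p']
  have hi' : ∀ m, i' (α m) = 1 ⊗ₜ i m := fun m => by simp [i', IsBaseChange.lift_eq]
  have hp'i' : ∀ x, p' (i' x) = x := by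
    intro x
    have : p' ∘ₗ i' = LinearMap.id := by
      apply j.algHom_ext
      intro m
      simp [hi', hp', hpi']
    exact LinearMap.congr_fun this x
  refine isBaseChange_of_retract hF (LinearMap.lcomp R N p) (LinearMap.lcomp R N i) ?_
    (LinearMap.lcomp S Q p') (LinearMap.lcomp S Q i') ?_ ?_ ?_
  · intro φ
    ext m
    simp [hpi']
  · intro y
    ext x
    simp [hp'i']
  · intro φ
    apply jF.algHom_ext
    intro v
    simp only [LinearMap.lcomp_apply', LinearMap.coe_comp, Function.comp_apply,
      TensorProduct.mk_apply]
    rw [hp', IsBaseChange.linearMapLeftRightHom_comp_apply]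
    exact (IsBaseChange.linearMapLeftRightHom_comp_apply jF β (φ ∘ₗ p) v).symm
  · intro ψ
    apply j.algHom_ext
    intro m
    simp only [LinearMap.lcomp_apply', LinearMap.coe_comp, Function.comp_apply]
    rw [hi', IsBaseChange.linearMapLeftRightHom_comp_apply]
    exact IsBaseChange.linearMapLeftRightHom_comp_apply jF β ψ (i m)

/-- Duals of finitely generated projective modules commute with base change. -/
theorem isBaseChange_toDual [Module.Finite R M] [Module.Projective R M]
    {α : M →ₗ[R] P} (j : IsBaseChange S α) : IsBaseChange S j.toDual :=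
  isBaseChange_linearMapLeftRightHom j (IsBaseChange.linearMap R S)

end Hom

end Fermat.Agent.S25.H625
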