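import Fermat.Agent.S25.DefsAlg
import Fermat.Agent.S25.H625.GDBaseChangeHom

/-!
# Row S25, GDC-OPS (helper625): internal Hom and dual of gluing data

* `invertible_linearMap` : `Hom` of invertible modules is invertible;
* `homDatum G G'` : the gluing datum `Hom(G, G')`;
* `dualDatum G` : the dual gluing datum `Hom(G, unit)`;
* `GDHom G G'` : morphisms of gluing data, `GDHom.h0Equiv : H⁰(Hom(G, G')) ≃ GDHom G G'`.
-/

set_option autoImplicit false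
universe u
open scoped TensorProduct

namespace Fermat.Agent.S25.H625

/-- `Hom` of invertible modules is invertible. -/
theorem invertible_linearMap {R M N : Type*} [CommRing R] [AddCommGroup M] [Module R M]
    [AddCommGroup N] [Module R N] [Module.Invertible R M] [Module.Invertible R N] :
    Module.Invertible R (M →ₗ[R] N) := by
  let e1 : (M →ₗ[R] N) ≃ₗ[R] (M ⊗[R] Module.Dual R M →ₗ[R] N ⊗[R] Module.Dual R M) :=
    Module.Invertible.rTensorEquiv M N (Module.Invertible.linearEquiv R M)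
  let e2 : M ⊗[R] Module.Dual R M ≃ₗ[R] R :=
    TensorProduct.comm R M (Module.Dual R M) ≪≫ₗ Module.Invertible.linearEquiv R M
  let e3 : (M ⊗[R] Module.Dual R M →ₗ[R] N ⊗[R] Module.Dual R M) ≃ₗ[R]
      (R →ₗ[R] N ⊗[R] Module.Dual R M) := LinearEquiv.congrLeft _ R e2
  let e4 : (R →ₗ[R] N ⊗[R] Module.Dual R M) ≃ₗ[R] N ⊗[R] Module.Dual R M :=
    LinearMap.ringLmapEquivSelf R R _
  exact Module.Invertible.congr (e1 ≪≫ₗ e3 ≪≫ₗ e4).symm

variable {A R₀ R₁ R₀₁ : Type u} [CommRing A] [CommRing R₀] [CommRing R₁]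
    [CommRing R₀₁] [Algebra A R₀] [Algebra A R₁] [Algebra A R₀₁] [Algebra R₀ R₀₁]
    [Algebra R₁ R₀₁] [IsScalarTower A R₀ R₀₁] [IsScalarTower A R₁ R₀₁]

attribute [local instance] GlueDatum.invertible₀ GlueDatum.invertible₁

/-- The internal Hom `Hom(G, G')` of two gluing data. -/
noncomputable def homDatum (G G' : GlueDatum A R₀ R₁ R₀₁) : GlueDatum A R₀ R₁ R₀₁ where
  N₀ := G.N₀ →ₗ[R₀] G'.N₀
  N₁ := G.N₁ →ₗ[R₁] G'.N₁
  N₀₁ := G.N₀₁ →ₗ[R₀₁] G'.N₀₁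
  r₀ := IsBaseChange.linearMapLeftRightHom G.isBaseChange₀ G'.r₀
  r₁ := IsBaseChange.linearMapLeftRightHom G.isBaseChange₁ G'.r₁
  isBaseChange₀ := isBaseChange_linearMapLeftRightHom G.isBaseChange₀ G'.isBaseChange₀
  isBaseChange₁ := isBaseChange_linearMapLeftRightHom G.isBaseChange₁ G'.isBaseChange₁
  invertible₀ := invertible_linearMap
  invertible₁ := invertible_linearMap

/-- The dual gluing datum. -/
noncomputable def dualDatum (G : GlueDatum A R₀ R₁ R₀₁) : GlueDatum A R₀ R₁ R₀₁ :=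
  homDatum G (GlueDatum.unit A R₀ R₁ R₀₁)


section Apply

variable (G G' : GlueDatum A R₀ R₁ R₀₁)

theorem homDatum_r₀_apply (φ : G.N₀ →ₗ[R₀] G'.N₀) (n : G.N₀) :
    (show G.N₀₁ →ₗ[R₀₁] G'.N₀₁ from (homDatum G G').r₀ φ) (G.r₀ n) = G'.r₀ (φ n) :=
  IsBaseChange.linearMapLeftRightHom_comp_apply G.isBaseChange₀ G'.r₀ φ n

theorem homDatum_r₁_apply (φ : G.N₁ →ₗ[R₁] G'.N₁) (n : G.N₁) :
    (show G.N₀₁ →ₗ[R₀₁] G'.N₀₁ from (homDatum G G').r₁ φ) (G.r₁ n) = G'.r₁ (φ n) :=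
  IsBaseChange.linearMapLeftRightHom_comp_apply G.isBaseChange₁ G'.r₁ φ n

theorem homDatum_r₀_eq_iff (φ : G.N₀ →ₗ[R₀] G'.N₀) (ψ : G.N₀₁ →ₗ[R₀₁] G'.N₀₁) :
    (show G.N₀₁ →ₗ[R₀₁] G'.N₀₁ from (homDatum G G').r₀ φ) = ψ ↔
      ∀ n, ψ (G.r₀ n) = G'.r₀ (φ n) := by
  constructor
  · rintro rfl n
    exact homDatum_r₀_apply G G' φ n
  · intro h
    apply G.isBaseChange₀.algHom_ext
    intro n
    rw [h n]
    exact homDatum_r₀_apply G G' φ n

theorem homDatum_r₁_eq_iff (φ : G.N₁ →ₗ[R₁] G'.N₁) (ψ : G.N₀₁ →ₗ[R₀₁] G'.N₀₁) :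
    (show G.N₀₁ →ₗ[R₀₁] G'.N₀₁ from (homDatum G G').r₁ φ) = ψ ↔
      ∀ n, ψ (G.r₁ n) = G'.r₁ (φ n) := by
  constructor
  · rintro rfl n
    exact homDatum_r₁_apply G G' φ n
  · intro h
    apply G.isBaseChange₁.algHom_ext
    intro n
    rw [h n]
    exact homDatum_r₁_apply G G' φ n

end Apply

/-- A morphism of gluing data. -/
structure GDHom (G G' : GlueDatum A R₀ R₁ R₀₁) where
  f₀ : G.N₀ →ₗ[R₀] G'.N₀
  f₁ : G.N₁ →ₗ[R₁] G'.N₁
  f₀₁ : G.N₀₁ →ₗ[R₀₁] G'.N₀₁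
  comm₀ : ∀ s, f₀₁ (G.r₀ s) = G'.r₀ (f₀ s)
  comm₁ : ∀ s, f₀₁ (G.r₁ s) = G'.r₁ (f₁ s)

namespace GDHom

variable {G G' G'' : GlueDatum A R₀ R₁ R₀₁}

theorem f₀₁_eq (f : GDHom G G') :
    f.f₀₁ = (show G.N₀₁ →ₗ[R₀₁] G'.N₀₁ from (homDatum G G').r₀ f.f₀) :=
  ((homDatum_r₀_eq_iff G G' f.f₀ f.f₀₁).2 f.comm₀).symm

theorem f₀₁_eq' (f : GDHom G G') :
    f.f₀₁ = (show G.N₀₁ →ₗ[R₀₁] G'.N₀₁ from (homDatum G G').r₁ f.f₁) :=
  ((homDatum_r₁_eq_iff G G' f.f₁ f.f₀₁).2 f.comm₁).symm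

@[ext] theorem ext {f g : GDHom G G'} (h₀ : f.f₀ = g.f₀) (h₁ : f.f₁ = g.f₁) : f = g := by
  have h₀₁ : f.f₀₁ = g.f₀₁ := by rw [f.f₀₁_eq, g.f₀₁_eq, h₀]
  cases f; cases g; simp only at h₀ h₁ h₀₁; subst h₀ h₁ h₀₁; rfl

/-- The identity morphism. -/
def id (G : GlueDatum A R₀ R₁ R₀₁) : GDHom G G :=
  ⟨LinearMap.id, LinearMap.id, LinearMap.id, fun _ => rfl, fun _ => rfl⟩

/-- Composition of morphisms. -/
def comp (g : GDHom G' G'') (f : GDHom G G') : GDHom G G'' :=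
  ⟨g.f₀ ∘ₗ f.f₀, g.f₁ ∘ₗ f.f₁, g.f₀₁ ∘ₗ f.f₀₁,
    fun s => by simp [f.comm₀, g.comm₀], fun s => by simp [f.comm₁, g.comm₁]⟩

/-- The morphism underlying an isomorphism. -/
def ofIso (i : GlueDatum.Iso G G') : GDHom G G' :=
  ⟨i.e₀, i.e₁, i.e₀₁, i.comm₀, i.comm₁⟩

theorem mem_H0_homDatum_iff (φ₀ : G.N₀ →ₗ[R₀] G'.N₀) (φ₁ : G.N₁ →ₗ[R₁] G'.N₁) :
    (show (homDatum G G').N₀ × (homDatum G G').N₁ from (φ₀, φ₁)) ∈ (homDatum G G').H0 ↔
      (homDatum G G').r₀ φ₀ = (homDatum G G').r₁ φ₁ := by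
  rw [LinearMap.mem_ker]
  simp only [GlueDatum.cech, LinearMap.coprod_apply, LinearMap.coe_restrictScalars,
    LinearMap.neg_apply]
  rw [← sub_eq_add_neg, sub_eq_zero]

/-- A global section of `Hom(G, G')` is a morphism `G → G'`. -/
noncomputable def ofH0 (h : (homDatum G G').H0) : GDHom G G' where
  f₀ := h.1.1
  f₁ := h.1.2
  f₀₁ := (homDatum G G').r₀ h.1.1
  comm₀ := fun s => homDatum_r₀_apply G G' h.1.1 s
  comm₁ := fun s => by
    have := (mem_H0_homDatum_iff (G := G) (G' := G') h.1.1 h.1.2).1 h.2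
    rw [this]
    exact homDatum_r₁_apply G G' h.1.2 s

/-- A morphism `G → G'` is a global section of `Hom(G, G')`. -/
noncomputable def toH0 (f : GDHom G G') : (homDatum G G').H0 :=
  ⟨(f.f₀, f.f₁), (mem_H0_homDatum_iff f.f₀ f.f₁).2 (by
    have h1 := f.f₀₁_eq
    have h2 := f.f₀₁_eq'
    exact h1.symm.trans h2)⟩

/-- Global sections of `Hom(G, G')` are the morphisms `G → G'`. -/
noncomputable def h0Equiv : (homDatum G G').H0 ≃ GDHom G G' where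
  toFun := ofH0
  invFun := toH0
  left_inv := fun h => by
    apply Subtype.ext
    rfl
  right_inv := fun f => by
    apply GDHom.ext <;> rfl

/-- A morphism with bijective components on the two charts is an isomorphism. -/
theorem isIso_of_bijective (f : GDHom G G') (h₀ : Function.Bijective f.f₀)
    (h₁ : Function.Bijective f.f₁) : G.IsIso G' := by
  let e₀ : G.N₀ ≃ₗ[R₀] G'.N₀ := LinearEquiv.ofBijective f.f₀ h₀
  have hbc : IsBaseChange R₀₁ ((G'.r₀).comp e₀.toLinearMap) :=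
    IsBaseChange.comp_equiv e₀ G'.r₀ G'.isBaseChange₀
  -- the inverse of `f₀₁`
  let g₀₁ : G'.N₀₁ →ₗ[R₀₁] G.N₀₁ := G'.isBaseChange₀.lift (G.r₀ ∘ₗ e₀.symm.toLinearMap)
  have hg : ∀ n, g₀₁ (G'.r₀ n) = G.r₀ (e₀.symm n) := fun n => by
    simp [g₀₁, IsBaseChange.lift_eq]
  have h1 : g₀₁ ∘ₗ f.f₀₁ = LinearMap.id := by
    apply G.isBaseChange₀.algHom_ext
    intro n
    simp only [LinearMap.coe_comp, Function.comp_apply, LinearMap.id_coe, id_eq]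
    rw [f.comm₀, hg]
    congr 1
    exact e₀.symm_apply_apply n
  have h2 : f.f₀₁ ∘ₗ g₀₁ = LinearMap.id := by
    apply G'.isBaseChange₀.algHom_ext
    intro n
    simp only [LinearMap.coe_comp, Function.comp_apply, LinearMap.id_coe, id_eq]
    rw [hg, f.comm₀]
    congr 1
    exact e₀.apply_symm_apply n
  exact ⟨⟨e₀, LinearEquiv.ofBijective f.f₁ h₁, LinearEquiv.ofLinearMap f.f₀₁ g₀₁ h2 h1,
    f.comm₀, f.comm₁⟩⟩

end GDHom

end Fermat.Agent.S25.H625
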