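import Fermat.Agent.S25.DefsAlg
import Fermat.Agent.S25.H625.GDHom

/-!
# Row S25, GDC-OPS (helper625): functoriality of the internal Hom, biduality, evaluation

* `homMap f g : GDHom (homDatum G G') (homDatum G₁ G'₁)` for `f : G₁ → G`, `g : G' → G'₁`;
* `isIso_homDatum` : `Hom(−, −)` respects isomorphism; `isIso_dualDatum`;
* `GDHom.ofSection : H⁰(G) → GDHom unit G`;
* `evalHom s : GDHom (dualDatum G) unit` for a section `s`, `φ ↦ φ(s)`;
* `isIso_dual_dual : G ≅ G^∨^∨`;  `isIso_homDatum_unit : Hom(unit, G) ≅ G`.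
-/

set_option autoImplicit false
universe u
open scoped TensorProduct

namespace Fermat.Agent.S25.H625

variable {A R₀ R₁ R₀₁ : Type u} [CommRing A] [CommRing R₀] [CommRing R₁]
    [CommRing R₀₁] [Algebra A R₀] [Algebra A R₁] [Algebra A R₀₁] [Algebra R₀ R₀₁]
    [Algebra R₁ R₀₁] [IsScalarTower A R₀ R₀₁] [IsScalarTower A R₁ R₀₁]

attribute [local instance] GlueDatum.invertible₀ GlueDatum.invertible₁

section Functoriality

variable {G G₁ G' G'₁ : GlueDatum A R₀ R₁ R₀₁}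

/-- `φ ↦ g ∘ φ ∘ f`, as a linear map. -/
def conjHom {R M M₁ N N₁ : Type*} [CommRing R] [AddCommGroup M] [Module R M]
    [AddCommGroup M₁] [Module R M₁] [AddCommGroup N] [Module R N] [AddCommGroup N₁]
    [Module R N₁] (f : M₁ →ₗ[R] M) (g : N →ₗ[R] N₁) : (M →ₗ[R] N) →ₗ[R] (M₁ →ₗ[R] N₁) where
  toFun := fun φ => g ∘ₗ φ ∘ₗ f
  map_add' := fun φ ψ => by ext; simp
  map_smul' := fun r φ => by ext; simp

@[simp] theorem conjHom_apply {R M M₁ N N₁ : Type*} [CommRing R] [AddCommGroup M] [Module R M]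
    [AddCommGroup M₁] [Module R M₁] [AddCommGroup N] [Module R N] [AddCommGroup N₁]
    [Module R N₁] (f : M₁ →ₗ[R] M) (g : N →ₗ[R] N₁) (φ : M →ₗ[R] N) (x : M₁) :
    conjHom f g φ x = g (φ (f x)) := rfl

theorem conjHom_bijective {R M M₁ N N₁ : Type*} [CommRing R] [AddCommGroup M] [Module R M]
    [AddCommGroup M₁] [Module R M₁] [AddCommGroup N] [Module R N] [AddCommGroup N₁]
    [Module R N₁] (e : M₁ ≃ₗ[R] M) (e' : N ≃ₗ[R] N₁) :
    Function.Bijective (conjHom (e : M₁ →ₗ[R] M) (e' : N →ₗ[R] N₁)) := by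
  refine Function.bijective_iff_has_inverse.2
    ⟨conjHom (e.symm : M →ₗ[R] M₁) (e'.symm : N₁ →ₗ[R] N), fun φ => ?_, fun φ => ?_⟩
  · ext x; simp
  · ext x; simp

/-- Functoriality of the internal Hom. -/
noncomputable def homMap (f : GDHom G₁ G) (g : GDHom G' G'₁) :
    GDHom (homDatum G G') (homDatum G₁ G'₁) where
  f₀ := conjHom f.f₀ g.f₀
  f₁ := conjHom f.f₁ g.f₁
  f₀₁ := conjHom f.f₀₁ g.f₀₁
  comm₀ := fun φ => by
    symm
    have := (homDatum_r₀_eq_iff G₁ G'₁ (conjHom f.f₀ g.f₀ φ)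
      (conjHom f.f₀₁ g.f₀₁ (show G.N₀₁ →ₗ[R₀₁] G'.N₀₁ from (homDatum G G').r₀ φ))).2
    apply this
    intro n
    rw [conjHom_apply, conjHom_apply, f.comm₀, homDatum_r₀_apply, g.comm₀]
  comm₁ := fun φ => by
    symm
    have := (homDatum_r₁_eq_iff G₁ G'₁ (conjHom f.f₁ g.f₁ φ)
      (conjHom f.f₀₁ g.f₀₁ (show G.N₀₁ →ₗ[R₀₁] G'.N₀₁ from (homDatum G G').r₁ φ))).2
    apply this
    intro n
    rw [conjHom_apply, conjHom_apply, f.comm₁, homDatum_r₁_apply, g.comm₁]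

/-- The internal Hom respects isomorphism. -/
theorem isIso_homDatum (h : G.IsIso G₁) (h' : G'.IsIso G'₁) :
    (homDatum G G').IsIso (homDatum G₁ G'₁) := by
  obtain ⟨i⟩ := h
  obtain ⟨i'⟩ := h'
  let f : GDHom G₁ G :=
    ⟨i.e₀.symm, i.e₁.symm, i.e₀₁.symm,
      fun s => by
        apply i.e₀₁.injective
        simp only [LinearEquiv.coe_coe, LinearEquiv.apply_symm_apply]
        rw [i.comm₀, LinearEquiv.apply_symm_apply],
      fun s => by
        apply i.e₀₁.injective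
        simp only [LinearEquiv.coe_coe, LinearEquiv.apply_symm_apply]
        rw [i.comm₁, LinearEquiv.apply_symm_apply]⟩
  exact (homMap f (GDHom.ofIso i')).isIso_of_bijective
    (conjHom_bijective i.e₀.symm i'.e₀) (conjHom_bijective i.e₁.symm i'.e₁)

/-- The dual respects isomorphism. -/
theorem isIso_dualDatum (h : G.IsIso G₁) : (dualDatum G).IsIso (dualDatum G₁) :=
  isIso_homDatum h ⟨⟨LinearEquiv.refl _ _, LinearEquiv.refl _ _, LinearEquiv.refl _ _,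
    fun _ => rfl, fun _ => rfl⟩⟩

end Functoriality

section Sections

variable (G : GlueDatum A R₀ R₁ R₀₁)

theorem mem_H0_iff (p : G.N₀ × G.N₁) : p ∈ G.H0 ↔ G.r₀ p.1 = G.r₁ p.2 := by
  rw [LinearMap.mem_ker]
  simp only [GlueDatum.cech, LinearMap.coprod_apply, LinearMap.coe_restrictScalars,
    LinearMap.neg_apply]
  rw [← sub_eq_add_neg, sub_eq_zero]

variable {G}

theorem r₀_smul_section (r : R₀) (n : G.N₀) :
    (algebraMap R₀ R₀₁ r) • G.r₀ n = G.r₀ (r • n) := by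
  rw [map_smul, algebraMap_smul]

theorem r₁_smul_section (r : R₁) (n : G.N₁) :
    (algebraMap R₁ R₀₁ r) • G.r₁ n = G.r₁ (r • n) := by
  rw [map_smul, algebraMap_smul]

/-- A global section as a morphism from the unit datum. -/
def GDHom.ofSection (s : G.H0) : GDHom (GlueDatum.unit A R₀ R₁ R₀₁) G where
  f₀ := LinearMap.toSpanSingleton R₀ G.N₀ s.1.1
  f₁ := LinearMap.toSpanSingleton R₁ G.N₁ s.1.2
  f₀₁ := LinearMap.toSpanSingleton R₀₁ G.N₀₁ (G.r₀ s.1.1)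
  comm₀ := fun r => r₀_smul_section (G := G) (show R₀ from r) s.1.1
  comm₁ := fun r => by
    have h := r₁_smul_section (G := G) (show R₁ from r) s.1.2
    rw [← (mem_H0_iff G s.1).1 s.2] at h
    exact h

/-- Evaluation at a global section: `G^∨ → unit`, `φ ↦ φ(s)`. -/
noncomputable def evalHom (s : G.H0) : GDHom (dualDatum G) (GlueDatum.unit A R₀ R₁ R₀₁) where
  f₀ := LinearMap.applyₗ (R := R₀) (M := G.N₀) (M₂ := R₀) s.1.1
  f₁ := LinearMap.applyₗ (R := R₁) (M := G.N₁) (M₂ := R₁) s.1.2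
  f₀₁ := LinearMap.applyₗ (R := R₀₁) (M := G.N₀₁) (M₂ := R₀₁) (G.r₀ s.1.1)
  comm₀ := fun φ => homDatum_r₀_apply G (GlueDatum.unit A R₀ R₁ R₀₁) φ s.1.1
  comm₁ := fun φ => by
    have h := homDatum_r₁_apply G (GlueDatum.unit A R₀ R₁ R₀₁) φ s.1.2
    rw [← (mem_H0_iff G s.1).1 s.2] at h
    exact h

theorem evalHom_f₀_apply (s : G.H0) (φ : G.N₀ →ₗ[R₀] R₀) :
    (show R₀ from (evalHom s).f₀ φ) = φ s.1.1 := rfl

theorem evalHom_f₁_apply (s : G.H0) (φ : G.N₁ →ₗ[R₁] R₁) :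
    (show R₁ from (evalHom s).f₁ φ) = φ s.1.2 := rfl

end Sections

section Bidual

variable (G : GlueDatum A R₀ R₁ R₀₁)

/-- The biduality morphism `G → G^∨^∨`. -/
noncomputable def bidualHom : GDHom G (dualDatum (dualDatum G)) where
  f₀ := Module.Dual.eval R₀ G.N₀
  f₁ := Module.Dual.eval R₁ G.N₁
  f₀₁ := Module.Dual.eval R₀₁ G.N₀₁
  comm₀ := fun n => by
    symm
    have := (homDatum_r₀_eq_iff (dualDatum G) (GlueDatum.unit A R₀ R₁ R₀₁)
      (Module.Dual.eval R₀ G.N₀ n) (Module.Dual.eval R₀₁ G.N₀₁ (G.r₀ n))).2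
    apply this
    intro φ
    exact homDatum_r₀_apply G (GlueDatum.unit A R₀ R₁ R₀₁) φ n
  comm₁ := fun n => by
    symm
    have := (homDatum_r₁_eq_iff (dualDatum G) (GlueDatum.unit A R₀ R₁ R₀₁)
      (Module.Dual.eval R₁ G.N₁ n) (Module.Dual.eval R₀₁ G.N₀₁ (G.r₁ n))).2
    apply this
    intro φ
    exact homDatum_r₁_apply G (GlueDatum.unit A R₀ R₁ R₀₁) φ n

/-- Biduality: `G ≅ G^∨^∨`. -/
theorem isIso_dual_dual : G.IsIso (dualDatum (dualDatum G)) :=
  (bidualHom G).isIso_of_bijective (Module.bijective_dual_eval R₀ G.N₀)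
    (Module.bijective_dual_eval R₁ G.N₁)

/-- `Hom(unit, G) ≅ G`. -/
theorem isIso_homDatum_unit : (homDatum (GlueDatum.unit A R₀ R₁ R₀₁) G).IsIso G := by
  let τ : GDHom (homDatum (GlueDatum.unit A R₀ R₁ R₀₁) G) G :=
    { f₀ := LinearMap.applyₗ (R := R₀) (M := R₀) (M₂ := G.N₀) 1
      f₁ := LinearMap.applyₗ (R := R₁) (M := R₁) (M₂ := G.N₁) 1
      f₀₁ := LinearMap.applyₗ (R := R₀₁) (M := R₀₁) (M₂ := G.N₀₁) 1
      comm₀ := fun φ => by
        have h := homDatum_r₀_apply (GlueDatum.unit A R₀ R₁ R₀₁) G φ (1 : R₀)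
        have h1 : (GlueDatum.unit A R₀ R₁ R₀₁).r₀ (1 : R₀) = (1 : R₀₁) :=
          map_one (algebraMap R₀ R₀₁)
        rw [h1] at h
        exact h
      comm₁ := fun φ => by
        have h := homDatum_r₁_apply (GlueDatum.unit A R₀ R₁ R₀₁) G φ (1 : R₁)
        have h1 : (GlueDatum.unit A R₀ R₁ R₀₁).r₁ (1 : R₁) = (1 : R₀₁) :=
          map_one (algebraMap R₁ R₀₁)
        rw [h1] at h
        exact h }
  exact τ.isIso_of_bijective (LinearMap.ringLmapEquivSelf R₀ R₀ G.N₀).bijective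
    (LinearMap.ringLmapEquivSelf R₁ R₁ G.N₁).bijective

end Bidual

end Fermat.Agent.S25.H625
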