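import Fermat.Agent.S25.DefsAlg
import Fermat.Agent.S25.H625.GDHom

/-!
# Row S25, GDC-OPS (helper625): internal Hom / dual of gluing data commute with base change

* toolkit for `IsSemilinearBaseChange`: `hom_ext`, `lift`, `lift_apply`;
* `semilinearHomMap` : `Hom_R(N, M) → Hom_{R'}(N', M')` and
  `isSemilinearBaseChange_semilinearHomMap` (source f.g. projective);
* `isBC_homDatum`, `isBC_dualDatum`.
-/

set_option autoImplicit false
universe u
open scoped TensorProduct

namespace Fermat.Agent.S25.H625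

section Semilinear

variable {R R' : Type u} [CommRing R] [CommRing R'] {ρ : R →+* R'}
  {N N' : Type u} [AddCommGroup N] [Module R N] [AddCommGroup N'] [Module R' N']
  {M M' : Type u} [AddCommGroup M] [Module R M] [AddCommGroup M'] [Module R' M']

/-- Two linear maps out of a semilinear base change that agree on the image are equal. -/
theorem semilinear_hom_ext {b : N →ₛₗ[ρ] N'} (hb : IsSemilinearBaseChange ρ b)
    {Q : Type*} [AddCommGroup Q] [Module R' Q] (g₁ g₂ : N' →ₗ[R'] Q)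
    (h : ∀ n, g₁ (b n) = g₂ (b n)) : g₁ = g₂ := by
  letI : Algebra R R' := ρ.toAlgebra
  letI : Module R N' := Module.compHom N' ρ
  haveI : IsScalarTower R R' N' := ⟨fun r r' n => by
    change (ρ r * r') • n = ρ r • (r' • n); rw [mul_smul]⟩
  let bl : N →ₗ[R] N' :=
    { toFun := fun n => b n
      map_add' := fun m n => b.map_add m n
      map_smul' := fun r n => LinearMap.map_smulₛₗ b r n }
  have hbl : IsBaseChange R' bl := hb
  exact hbl.algHom_ext g₁ g₂ h

/-- The universal property of a semilinear base change. -/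
noncomputable def semilinearLift {b : N →ₛₗ[ρ] N'}
    (hb : IsSemilinearBaseChange ρ b) {Q : Type*} [AddCommGroup Q] [Module R' Q]
    (c : N →ₛₗ[ρ] Q) : N' →ₗ[R'] Q :=
  letI : Algebra R R' := ρ.toAlgebra
  letI : Module R N' := Module.compHom N' ρ
  letI : Module R Q := Module.compHom Q ρ
  haveI : IsScalarTower R R' N' := ⟨fun r r' n => by
    change (ρ r * r') • n = ρ r • (r' • n); rw [mul_smul]⟩
  haveI : IsScalarTower R R' Q := ⟨fun r r' n => by
    change (ρ r * r') • n = ρ r • (r' • n); rw [mul_smul]⟩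
  let bl : N →ₗ[R] N' :=
    { toFun := fun n => b n
      map_add' := fun m n => b.map_add m n
      map_smul' := fun r n => LinearMap.map_smulₛₗ b r n }
  have hbl : IsBaseChange R' bl := hb
  hbl.lift
    { toFun := fun n => c n
      map_add' := fun m n => c.map_add m n
      map_smul' := fun r n => LinearMap.map_smulₛₗ c r n }

theorem semilinearLift_apply {b : N →ₛₗ[ρ] N'}
    (hb : IsSemilinearBaseChange ρ b) {Q : Type*} [AddCommGroup Q] [Module R' Q]
    (c : N →ₛₗ[ρ] Q) (n : N) : semilinearLift hb c (b n) = c n := by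
  letI : Algebra R R' := ρ.toAlgebra
  letI : Module R N' := Module.compHom N' ρ
  letI : Module R Q := Module.compHom Q ρ
  haveI : IsScalarTower R R' N' := ⟨fun r r' n => by
    change (ρ r * r') • n = ρ r • (r' • n); rw [mul_smul]⟩
  haveI : IsScalarTower R R' Q := ⟨fun r r' n => by
    change (ρ r * r') • n = ρ r • (r' • n); rw [mul_smul]⟩
  let bl : N →ₗ[R] N' :=
    { toFun := fun n => b n
      map_add' := fun m n => b.map_add m n
      map_smul' := fun r n => LinearMap.map_smulₛₗ b r n }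
  have hbl : IsBaseChange R' bl := hb
  exact hbl.lift_eq
    { toFun := fun n => c n
      map_add' := fun m n => c.map_add m n
      map_smul' := fun r n => LinearMap.map_smulₛₗ c r n } n

/-- The map `Hom_R(N, M) → Hom_{R'}(N', M')` induced by semilinear maps `b : N → N'` (a base
change) and `b' : M → M'`. -/
noncomputable def semilinearHomMap {b : N →ₛₗ[ρ] N'} (hb : IsSemilinearBaseChange ρ b)
    (b' : M →ₛₗ[ρ] M') : (N →ₗ[R] M) →ₛₗ[ρ] (N' →ₗ[R'] M') where
  toFun := fun φ => semilinearLift hb (b'.comp φ)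
  map_add' := fun φ ψ => semilinear_hom_ext hb _ _ (fun n => by
    simp [semilinearLift_apply])
  map_smul' := fun r φ => semilinear_hom_ext hb _ _ (fun n => by
    simp [semilinearLift_apply])

theorem semilinearHomMap_apply {b : N →ₛₗ[ρ] N'} (hb : IsSemilinearBaseChange ρ b)
    (b' : M →ₛₗ[ρ] M') (φ : N →ₗ[R] M) (n : N) :
    semilinearHomMap hb b' φ (b n) = b' (φ n) := by
  simp [semilinearHomMap, semilinearLift_apply]

theorem semilinearHomMap_eq_iff {b : N →ₛₗ[ρ] N'} (hb : IsSemilinearBaseChange ρ b)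
    (b' : M →ₛₗ[ρ] M') (φ : N →ₗ[R] M) (ψ : N' →ₗ[R'] M') :
    semilinearHomMap hb b' φ = ψ ↔ ∀ n, ψ (b n) = b' (φ n) := by
  constructor
  · rintro rfl n
    exact semilinearHomMap_apply hb b' φ n
  · intro h
    refine semilinear_hom_ext hb _ _ (fun n => ?_)
    rw [h n, semilinearHomMap_apply]

/-- `Hom` of a finitely generated projective module commutes with semilinear base change. -/
theorem isSemilinearBaseChange_semilinearHomMap [Module.Finite R N] [Module.Projective R N]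
    {b : N →ₛₗ[ρ] N'} (hb : IsSemilinearBaseChange ρ b) {b' : M →ₛₗ[ρ] M'}
    (hb' : IsSemilinearBaseChange ρ b') :
    IsSemilinearBaseChange ρ (semilinearHomMap hb b') := by
  letI : Algebra R R' := ρ.toAlgebra
  letI : Module R N' := Module.compHom N' ρ
  letI : Module R M' := Module.compHom M' ρ
  haveI : IsScalarTower R R' N' := ⟨fun r r' n => by
    change (ρ r * r') • n = ρ r • (r' • n); rw [mul_smul]⟩
  haveI : IsScalarTower R R' M' := ⟨fun r r' n => by
    change (ρ r * r') • n = ρ r • (r' • n); rw [mul_smul]⟩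
  let bl : N →ₗ[R] N' :=
    { toFun := fun n => b n
      map_add' := fun m n => b.map_add m n
      map_smul' := fun r n => LinearMap.map_smulₛₗ b r n }
  let bl' : M →ₗ[R] M' :=
    { toFun := fun n => b' n
      map_add' := fun m n => b'.map_add m n
      map_smul' := fun r n => LinearMap.map_smulₛₗ b' r n }
  have hbl : IsBaseChange R' bl := hb
  have hbl' : IsBaseChange R' bl' := hb'
  have H := isBaseChange_linearMapLeftRightHom hbl hbl'
  have he : ∀ φ : N →ₗ[R] M, H.equiv ((1 : R') ⊗ₜ[R] φ) = semilinearHomMap hb b' φ := by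
    intro φ
    rw [H.equiv_tmul, one_smul]
    symm
    rw [semilinearHomMap_eq_iff]
    intro n
    exact IsBaseChange.linearMapLeftRightHom_comp_apply hbl bl' φ n
  unfold IsSemilinearBaseChange
  exact IsBaseChange.of_equiv H.equiv he

end Semilinear

section HomDatum

variable {A R₀ R₁ R₀₁ : Type u} [CommRing A] [CommRing R₀] [CommRing R₁]
    [CommRing R₀₁] [Algebra A R₀] [Algebra A R₁] [Algebra A R₀₁] [Algebra R₀ R₀₁]
    [Algebra R₁ R₀₁] [IsScalarTower A R₀ R₀₁] [IsScalarTower A R₁ R₀₁]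
    {A' R₀' R₁' R₀₁' : Type u} [CommRing A'] [CommRing R₀'] [CommRing R₁']
    [CommRing R₀₁'] [Algebra A' R₀'] [Algebra A' R₁'] [Algebra A' R₀₁'] [Algebra R₀' R₀₁']
    [Algebra R₁' R₀₁'] [IsScalarTower A' R₀' R₀₁'] [IsScalarTower A' R₁' R₀₁']

attribute [local instance] GlueDatum.invertible₀ GlueDatum.invertible₁

/-- The module of sections over the intersection is invertible. -/
theorem invertible_N₀₁ (G : GlueDatum A R₀ R₁ R₀₁) : Module.Invertible R₀₁ G.N₀₁ :=
  Module.Invertible.congr G.isBaseChange₀.equiv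

/-- The internal Hom of gluing data commutes with base change. -/
theorem isBC_homDatum {ρ₀ : R₀ →+* R₀'} {ρ₁ : R₁ →+* R₁'} {ρ₀₁ : R₀₁ →+* R₀₁'}
    {G H : GlueDatum A R₀ R₁ R₀₁} {G' H' : GlueDatum A' R₀' R₁' R₀₁'}
    (hG : GlueDatum.IsBC ρ₀ ρ₁ ρ₀₁ G G') (hH : GlueDatum.IsBC ρ₀ ρ₁ ρ₀₁ H H') :
    GlueDatum.IsBC ρ₀ ρ₁ ρ₀₁ (homDatum G H) (homDatum G' H') := by
  obtain ⟨m⟩ := hG
  obtain ⟨m'⟩ := hH
  haveI : Module.Invertible R₀₁ G.N₀₁ := invertible_N₀₁ G
  have c₀ : ∀ φ : G.N₀ →ₗ[R₀] H.N₀,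
      semilinearHomMap m.isBaseChange₀₁ m'.b₀₁
        (show G.N₀₁ →ₗ[R₀₁] H.N₀₁ from (homDatum G H).r₀ φ) =
      (show G'.N₀₁ →ₗ[R₀₁'] H'.N₀₁ from
        (homDatum G' H').r₀ (semilinearHomMap m.isBaseChange₀ m'.b₀ φ)) := by
    intro φ
    symm
    rw [homDatum_r₀_eq_iff]
    intro n'
    set χ : G'.N₀₁ →ₗ[R₀₁'] H'.N₀₁ := semilinearHomMap m.isBaseChange₀₁ m'.b₀₁
        (show G.N₀₁ →ₗ[R₀₁] H.N₀₁ from (homDatum G H).r₀ φ) with hχ
    have key : (χ.restrictScalars R₀') ∘ₗ G'.r₀ =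
        H'.r₀ ∘ₗ (semilinearHomMap m.isBaseChange₀ m'.b₀ φ) := by
      refine semilinear_hom_ext m.isBaseChange₀ _ _ (fun n => ?_)
      simp only [LinearMap.coe_comp, LinearMap.coe_restrictScalars, Function.comp_apply]
      rw [← m.comm₀, hχ, semilinearHomMap_apply, homDatum_r₀_apply, m'.comm₀,
        semilinearHomMap_apply]
    exact LinearMap.congr_fun key n'
  have c₁ : ∀ φ : G.N₁ →ₗ[R₁] H.N₁,
      semilinearHomMap m.isBaseChange₀₁ m'.b₀₁
        (show G.N₀₁ →ₗ[R₀₁] H.N₀₁ from (homDatum G H).r₁ φ) =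
      (show G'.N₀₁ →ₗ[R₀₁'] H'.N₀₁ from
        (homDatum G' H').r₁ (semilinearHomMap m.isBaseChange₁ m'.b₁ φ)) := by
    intro φ
    symm
    rw [homDatum_r₁_eq_iff]
    intro n'
    set χ : G'.N₀₁ →ₗ[R₀₁'] H'.N₀₁ := semilinearHomMap m.isBaseChange₀₁ m'.b₀₁
        (show G.N₀₁ →ₗ[R₀₁] H.N₀₁ from (homDatum G H).r₁ φ) with hχ
    have key : (χ.restrictScalars R₁') ∘ₗ G'.r₁ =
        H'.r₁ ∘ₗ (semilinearHomMap m.isBaseChange₁ m'.b₁ φ) := by
      refine semilinear_hom_ext m.isBaseChange₁ _ _ (fun n => ?_)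
      simp only [LinearMap.coe_comp, LinearMap.coe_restrictScalars, Function.comp_apply]
      rw [← m.comm₁, hχ, semilinearHomMap_apply, homDatum_r₁_apply, m'.comm₁,
        semilinearHomMap_apply]
    exact LinearMap.congr_fun key n'
  exact ⟨⟨semilinearHomMap m.isBaseChange₀ m'.b₀, semilinearHomMap m.isBaseChange₁ m'.b₁,
    semilinearHomMap m.isBaseChange₀₁ m'.b₀₁, c₀, c₁,
    isSemilinearBaseChange_semilinearHomMap m.isBaseChange₀ m'.isBaseChange₀,
    isSemilinearBaseChange_semilinearHomMap m.isBaseChange₁ m'.isBaseChange₁,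
    isSemilinearBaseChange_semilinearHomMap m.isBaseChange₀₁ m'.isBaseChange₀₁⟩⟩

/-- A ring homomorphism as a semilinear map. -/
def ringSemilinear {R R' : Type u} [CommRing R] [CommRing R'] (ρ : R →+* R') : R →ₛₗ[ρ] R' where
  toFun := fun r => ρ r
  map_add' := fun a b => ρ.map_add a b
  map_smul' := fun r a => by simp

@[simp] theorem ringSemilinear_apply {R R' : Type u} [CommRing R] [CommRing R'] (ρ : R →+* R')
    (r : R) : ringSemilinear ρ r = ρ r := rfl

theorem isSemilinearBaseChange_ringSemilinear {R R' : Type u} [CommRing R] [CommRing R']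
    (ρ : R →+* R') : IsSemilinearBaseChange ρ (ringSemilinear ρ) := by
  unfold IsSemilinearBaseChange
  letI : Algebra R R' := ρ.toAlgebra
  exact IsBaseChange.linearMap R R'

/-- The unit datum is the base change of the unit datum. -/
theorem isBC_unit (ρ₀ : R₀ →+* R₀') (ρ₁ : R₁ →+* R₁') (ρ₀₁ : R₀₁ →+* R₀₁')
    (h₀ : ∀ r, ρ₀₁ (algebraMap R₀ R₀₁ r) = algebraMap R₀' R₀₁' (ρ₀ r))
    (h₁ : ∀ r, ρ₀₁ (algebraMap R₁ R₀₁ r) = algebraMap R₁' R₀₁' (ρ₁ r)) :
    GlueDatum.IsBC ρ₀ ρ₁ ρ₀₁ (GlueDatum.unit A R₀ R₁ R₀₁) (GlueDatum.unit A' R₀' R₁' R₀₁') :=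
  ⟨{ b₀ := ringSemilinear ρ₀
     b₁ := ringSemilinear ρ₁
     b₀₁ := ringSemilinear ρ₀₁
     comm₀ := h₀
     comm₁ := h₁
     isBaseChange₀ := isSemilinearBaseChange_ringSemilinear ρ₀
     isBaseChange₁ := isSemilinearBaseChange_ringSemilinear ρ₁
     isBaseChange₀₁ := isSemilinearBaseChange_ringSemilinear ρ₀₁ }⟩

/-- The dual of gluing data commutes with base change. -/
theorem isBC_dualDatum {ρ₀ : R₀ →+* R₀'} {ρ₁ : R₁ →+* R₁'} {ρ₀₁ : R₀₁ →+* R₀₁'}
    (h₀ : ∀ r, ρ₀₁ (algebraMap R₀ R₀₁ r) = algebraMap R₀' R₀₁' (ρ₀ r))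
    (h₁ : ∀ r, ρ₀₁ (algebraMap R₁ R₀₁ r) = algebraMap R₁' R₀₁' (ρ₁ r))
    {G : GlueDatum A R₀ R₁ R₀₁} {G' : GlueDatum A' R₀' R₁' R₀₁'}
    (hG : GlueDatum.IsBC ρ₀ ρ₁ ρ₀₁ G G') :
    GlueDatum.IsBC ρ₀ ρ₁ ρ₀₁ (dualDatum G) (dualDatum G') :=
  isBC_homDatum hG (isBC_unit ρ₀ ρ₁ ρ₀₁ h₀ h₁)

end HomDatum

end Fermat.Agent.S25.H625
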