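import Fermat.Agent.S25.DefsAlg
import Fermat.Agent.S25.H625.GDHom

/-!
# Row S25, GDC-OPS (helper625): the gluing datum of a compatible pair of invertible ideals

For ideals `I₀ ⊆ R₀`, `I₁ ⊆ R₁` with `I₀ R₀₁ = I₁ R₀₁`, invertible as modules, and `R₀₁` flat
over `R₀` and `R₁` (e.g. a localization): `idealDatum I₀ I₁ h = (I₀, I₁, I₀ R₀₁)` (`= O(−D)`).

* `isBaseChange_idealMap` : `I → I S` is a base change for flat `S`;
* `idealDatum`, `idealDatum.incl : GDHom (idealDatum ..) unit`;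
* `isIso_idealDatum_of_injective` : a gluing datum with an injective morphism to the unit
  datum is isomorphic to the ideal datum of its image.
-/

set_option autoImplicit false
universe u
open scoped TensorProduct

namespace Fermat.Agent.S25.H625

section IdealMap

variable {R S : Type*} [CommRing R] [CommRing S] [Algebra R S]

/-- The `R`-module structure on an ideal of an `R`-algebra `S`, and the restriction
`I → J` of the algebra map when `I S = J`. -/
def idealMapₗ (I : Ideal R) (J : Ideal S) (h : I.map (algebraMap R S) = J) : I →ₗ[R] J where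
  toFun := fun a => ⟨algebraMap R S a, h ▸ Ideal.mem_map_of_mem _ a.2⟩
  map_add' := fun a b => Subtype.ext (by simp)
  map_smul' := fun r a => Subtype.ext (by simp [Algebra.smul_def])

@[simp] theorem idealMapₗ_coe (I : Ideal R) (J : Ideal S) (h : I.map (algebraMap R S) = J)
    (a : I) : ((idealMapₗ I J h a : J) : S) = algebraMap R S a := rfl

/-- For a flat `R`-algebra `S` and an ideal `I` of `R`, the extended ideal `I S` is the base
change of `I`. -/
theorem isBaseChange_idealMap [Module.Flat R S] (I : Ideal R) (J : Ideal S)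
    (h : I.map (algebraMap R S) = J) : IsBaseChange S (idealMapₗ I J h) := by
  subst h
  set ι := idealMapₗ I (I.map (algebraMap R S)) rfl with hι
  have hinj : Function.Injective (ι.liftBaseChange S) := by
    have h1 : Function.Injective ((I.subtype).lTensor S) :=
      Module.Flat.lTensor_preserves_injective_linearMap _ Subtype.val_injective
    have h2 : ∀ t : S ⊗[R] I, ((ι.liftBaseChange S t : I.map (algebraMap R S)) : S) =
        TensorProduct.rid R S ((I.subtype).lTensor S t) := by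
      intro t
      induction t using TensorProduct.induction_on with
      | zero => simp
      | tmul s a =>
        simp only [LinearMap.liftBaseChange_tmul, LinearMap.lTensor_tmul, Submodule.subtype_apply,
          TensorProduct.rid_tmul]
        rw [Submodule.coe_smul, hι, idealMapₗ_coe, smul_eq_mul, Algebra.smul_def, mul_comm]
      | add x y hx hy => simp only [map_add, Submodule.coe_add, hx, hy]
    intro t t' htt'
    apply h1
    apply (TensorProduct.rid R S).injective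
    rw [← h2, ← h2, htt']
  have hsurj : Function.Surjective (ι.liftBaseChange S) := by
    rintro ⟨y, hy⟩
    have : ∀ y ∈ I.map (algebraMap R S), ∃ t : S ⊗[R] I,
        ((ι.liftBaseChange S t : I.map (algebraMap R S)) : S) = y := by
      intro y hy
      refine Submodule.span_induction (p := fun y _ => ∃ t : S ⊗[R] I,
        ((ι.liftBaseChange S t : I.map (algebraMap R S)) : S) = y) ?_ ?_ ?_ ?_ hy
      · rintro _ ⟨a, ha, rfl⟩
        exact ⟨1 ⊗ₜ ⟨a, ha⟩, by simp [hι]⟩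
      · exact ⟨0, by simp⟩
      · rintro x y _ _ ⟨t, ht⟩ ⟨t', ht'⟩
        exact ⟨t + t', by simp [ht, ht']⟩
      · rintro s x _ ⟨t, ht⟩
        exact ⟨s • t, by simp [ht]⟩
    obtain ⟨t, ht⟩ := this y hy
    exact ⟨t, Subtype.ext ht⟩
  exact IsBaseChange.of_equiv (LinearEquiv.ofBijective (ι.liftBaseChange S) ⟨hinj, hsurj⟩)
    (fun x => by simp)

end IdealMap

variable {A R₀ R₁ R₀₁ : Type u} [CommRing A] [CommRing R₀] [CommRing R₁]
    [CommRing R₀₁] [Algebra A R₀] [Algebra A R₁] [Algebra A R₀₁] [Algebra R₀ R₀₁]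
    [Algebra R₁ R₀₁] [IsScalarTower A R₀ R₀₁] [IsScalarTower A R₁ R₀₁]

/-- The gluing datum `(I₀, I₁, I₀ R₀₁)` of a compatible pair of invertible ideals. -/
noncomputable def idealDatum [Module.Flat R₀ R₀₁] [Module.Flat R₁ R₀₁]
    (I₀ : Ideal R₀) (I₁ : Ideal R₁) [Module.Invertible R₀ I₀] [Module.Invertible R₁ I₁]
    (h : I₁.map (algebraMap R₁ R₀₁) = I₀.map (algebraMap R₀ R₀₁)) : GlueDatum A R₀ R₁ R₀₁ where
  N₀ := I₀
  N₁ := I₁
  N₀₁ := I₀.map (algebraMap R₀ R₀₁)
  r₀ := idealMapₗ I₀ _ rfl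
  r₁ := idealMapₗ I₁ _ h
  isBaseChange₀ := isBaseChange_idealMap I₀ _ rfl
  isBaseChange₁ := isBaseChange_idealMap I₁ _ h
  invertible₀ := inferInstance
  invertible₁ := inferInstance

section Incl

variable [Module.Flat R₀ R₀₁] [Module.Flat R₁ R₀₁]
    (I₀ : Ideal R₀) (I₁ : Ideal R₁) [Module.Invertible R₀ I₀] [Module.Invertible R₁ I₁]
    (h : I₁.map (algebraMap R₁ R₀₁) = I₀.map (algebraMap R₀ R₀₁))

/-- The inclusion of the ideal datum into the unit datum. -/
noncomputable def idealDatumIncl :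
    GDHom (idealDatum (A := A) I₀ I₁ h) (GlueDatum.unit A R₀ R₁ R₀₁) where
  f₀ := I₀.subtype
  f₁ := I₁.subtype
  f₀₁ := (I₀.map (algebraMap R₀ R₀₁)).subtype
  comm₀ := fun _ => rfl
  comm₁ := fun _ => rfl

theorem idealDatumIncl_f₀_injective :
    Function.Injective (idealDatumIncl (A := A) I₀ I₁ h).f₀ := Subtype.val_injective

theorem idealDatumIncl_f₁_injective :
    Function.Injective (idealDatumIncl (A := A) I₀ I₁ h).f₁ := Subtype.val_injective

end Incl

section Image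

variable {G : GlueDatum A R₀ R₁ R₀₁}

/-- The image in `R₀` of a morphism `σ : G → unit`. -/
def GDHom.ideal₀ (σ : GDHom G (GlueDatum.unit A R₀ R₁ R₀₁)) : Ideal R₀ :=
  LinearMap.range (show G.N₀ →ₗ[R₀] R₀ from σ.f₀)

/-- The image in `R₁` of a morphism `σ : G → unit`. -/
def GDHom.ideal₁ (σ : GDHom G (GlueDatum.unit A R₀ R₁ R₀₁)) : Ideal R₁ :=
  LinearMap.range (show G.N₁ →ₗ[R₁] R₁ from σ.f₁)

/-- The image in `R₀₁` of a morphism `σ : G → unit`. -/
def GDHom.ideal₀₁ (σ : GDHom G (GlueDatum.unit A R₀ R₁ R₀₁)) : Ideal R₀₁ :=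
  LinearMap.range (show G.N₀₁ →ₗ[R₀₁] R₀₁ from σ.f₀₁)

theorem GDHom.mem_ideal₀ (σ : GDHom G (GlueDatum.unit A R₀ R₁ R₀₁)) (a : R₀) :
    a ∈ σ.ideal₀ ↔ ∃ n : G.N₀, (show R₀ from σ.f₀ n) = a := Iff.rfl

theorem GDHom.mem_ideal₁ (σ : GDHom G (GlueDatum.unit A R₀ R₁ R₀₁)) (a : R₁) :
    a ∈ σ.ideal₁ ↔ ∃ n : G.N₁, (show R₁ from σ.f₁ n) = a := Iff.rfl

theorem GDHom.mem_ideal₀₁ (σ : GDHom G (GlueDatum.unit A R₀ R₁ R₀₁)) (a : R₀₁) :
    a ∈ σ.ideal₀₁ ↔ ∃ n : G.N₀₁, (show R₀₁ from σ.f₀₁ n) = a := Iff.rfl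

/-- For a morphism `σ : G → unit`, the image of `σ₀₁` is the extension of the image of `σ₀`. -/
theorem GDHom.map_ideal₀ (σ : GDHom G (GlueDatum.unit A R₀ R₁ R₀₁)) :
    Ideal.map (algebraMap R₀ R₀₁) σ.ideal₀ = σ.ideal₀₁ := by
  apply le_antisymm
  · rw [Ideal.map_le_iff_le_comap]
    rintro _ ⟨n, rfl⟩
    exact ⟨G.r₀ n, σ.comm₀ n⟩
  · rintro _ ⟨m, rfl⟩
    show (show R₀₁ from σ.f₀₁ m) ∈ Ideal.map (algebraMap R₀ R₀₁) σ.ideal₀
    induction m using G.isBaseChange₀.inductionOn with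
    | zero => rw [map_zero]; exact Ideal.zero_mem _
    | tmul n =>
      rw [σ.comm₀]
      exact Ideal.mem_map_of_mem _ ⟨n, rfl⟩
    | smul s m hm =>
      rw [map_smul]
      exact Ideal.mul_mem_left _ s hm
    | add m m' hm hm' =>
      rw [map_add]
      exact Ideal.add_mem _ hm hm'

/-- For a morphism `σ : G → unit`, the image of `σ₀₁` is the extension of the image of `σ₁`. -/
theorem GDHom.map_ideal₁ (σ : GDHom G (GlueDatum.unit A R₀ R₁ R₀₁)) :
    Ideal.map (algebraMap R₁ R₀₁) σ.ideal₁ = σ.ideal₀₁ := by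
  apply le_antisymm
  · rw [Ideal.map_le_iff_le_comap]
    rintro _ ⟨n, rfl⟩
    exact ⟨G.r₁ n, σ.comm₁ n⟩
  · rintro _ ⟨m, rfl⟩
    show (show R₀₁ from σ.f₀₁ m) ∈ Ideal.map (algebraMap R₁ R₀₁) σ.ideal₁
    induction m using G.isBaseChange₁.inductionOn with
    | zero => rw [map_zero]; exact Ideal.zero_mem _
    | tmul n =>
      rw [σ.comm₁]
      exact Ideal.mem_map_of_mem _ ⟨n, rfl⟩
    | smul s m hm =>
      rw [map_smul]
      exact Ideal.mul_mem_left _ s hm
    | add m m' hm hm' =>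
      rw [map_add]
      exact Ideal.add_mem _ hm hm'

theorem GDHom.map_ideal₁_eq (σ : GDHom G (GlueDatum.unit A R₀ R₁ R₀₁)) :
    Ideal.map (algebraMap R₁ R₀₁) σ.ideal₁ = Ideal.map (algebraMap R₀ R₀₁) σ.ideal₀ :=
  σ.map_ideal₁.trans σ.map_ideal₀.symm

/-- The image of an injective linear map from an invertible module is invertible. -/
theorem invertible_range {R N : Type*} [CommRing R] [AddCommGroup N] [Module R N]
    [Module.Invertible R N] {f : N →ₗ[R] R} (hf : Function.Injective f) :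
    Module.Invertible R (LinearMap.range f : Ideal R) :=
  Module.Invertible.congr (LinearEquiv.ofInjective f hf)

theorem GDHom.invertible_ideal₀ (σ : GDHom G (GlueDatum.unit A R₀ R₁ R₀₁))
    (h₀ : Function.Injective σ.f₀) : Module.Invertible R₀ σ.ideal₀ :=
  haveI := G.invertible₀
  invertible_range (f := (show G.N₀ →ₗ[R₀] R₀ from σ.f₀)) h₀

theorem GDHom.invertible_ideal₁ (σ : GDHom G (GlueDatum.unit A R₀ R₁ R₀₁))
    (h₁ : Function.Injective σ.f₁) : Module.Invertible R₁ σ.ideal₁ :=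
  haveI := G.invertible₁
  invertible_range (f := (show G.N₁ →ₗ[R₁] R₁ from σ.f₁)) h₁

/-- A gluing datum with an injective morphism to the unit datum is isomorphic to the ideal
datum of the image (`G ≅ O(−D)`, `D` the divisor of the section `σ` of `G^∨`). -/
theorem isIso_idealDatum_of_injective [Module.Flat R₀ R₀₁] [Module.Flat R₁ R₀₁]
    (σ : GDHom G (GlueDatum.unit A R₀ R₁ R₀₁)) (h₀ : Function.Injective σ.f₀)
    (h₁ : Function.Injective σ.f₁) [Module.Invertible R₀ σ.ideal₀]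
    [Module.Invertible R₁ σ.ideal₁] :
    G.IsIso (idealDatum σ.ideal₀ σ.ideal₁ σ.map_ideal₁_eq) := by
  have hmem : ∀ m, (show R₀₁ from σ.f₀₁ m) ∈ Ideal.map (algebraMap R₀ R₀₁) σ.ideal₀ := by
    intro m
    rw [GDHom.map_ideal₀ σ]
    exact ⟨m, rfl⟩
  let τ : GDHom G (idealDatum (A := A) σ.ideal₀ σ.ideal₁ σ.map_ideal₁_eq) :=
    { f₀ := (show G.N₀ →ₗ[R₀] R₀ from σ.f₀).rangeRestrict
      f₁ := (show G.N₁ →ₗ[R₁] R₁ from σ.f₁).rangeRestrict
      f₀₁ := LinearMap.codRestrict (Ideal.map (algebraMap R₀ R₀₁) σ.ideal₀)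
        (show G.N₀₁ →ₗ[R₀₁] R₀₁ from σ.f₀₁) hmem
      comm₀ := fun s => Subtype.ext (σ.comm₀ s)
      comm₁ := fun s => Subtype.ext (σ.comm₁ s) }
  refine τ.isIso_of_bijective ⟨?_, ?_⟩ ⟨?_, ?_⟩
  · intro a b hab
    exact h₀ (congrArg Subtype.val hab)
  · rintro ⟨_, n, rfl⟩
    exact ⟨n, rfl⟩
  · intro a b hab
    exact h₁ (congrArg Subtype.val hab)
  · rintro ⟨_, n, rfl⟩
    exact ⟨n, rfl⟩

end Image

end Fermat.Agent.S25.H625
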